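import Mathlib
import Fermat.Agent.LT.H556.A0
import Fermat.Agent.LT.T1.Spec
import Fermat.Agent.LT.T2.Spec

/-!
# Row LT, tower T2, leaf T2.07 (`OpsGood`): SUB-SPEC (helper429, owner of T2.07)

OFF-MAIN.  Vocabulary: `LT/H556/A0.lean`, `LT/T1/Spec.lean` (v1), `LT/T2/Spec.lean` (v2 sha256
43969e81 or v3 sha256 b934629a: this file compiles against both), byte-identical copies.  Nothing is assumed, no opaque constant, no placeholder proof.

`T2.Leaf07 K` is split along the GENERATORS of `T2.IsOp` (`IsGen429`): convolutions by spherical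
test functions, Hecke sums, scalar shifts and their inverses, sphere means, circle means.

* `Pres429`, `Lin429`, `Bdd429`, `Comm429`, `HasAdj429`: the five clauses of `T2.OpsGood` for ONE
  operator (resp. one pair of operators).
* `GenGood429 𝔫 F`: the five clauses for the generators only.
* PROVED: `opsGood_of_genGood429 : (∀ F, GenGood429 𝔫 F) → OpsGood K 𝔫` (induction on `IsOp`; the
  bound of a composite uses `nsq ≥ 0`, the commutation is a double induction which uses the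
  preservation of the cusp functions, the adjoint of `S ∘ T` is `T' ∘ S'`).
* The sub-leaves `Sub…429` (registry rows `T2.07.x`), each under the standing hypotheses
  `Ctx429 K 𝔫` of the leaf, and the PROVED `opsGood_of_sub429 : Sub429 K → … → OpsGood K 𝔫`.
-/

set_option autoImplicit false

open IsDedekindDomain NumberField MeasureTheory
open Fermat.Agent.LT.H556.A0
open Fermat.Agent.LT.T2

noncomputable section

namespace Fermat.Agent.LT.T2.H429

variable {K : Type} [Field K] [NumberField K]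

attribute [local instance] Fermat.Agent.LT.T2.borelG

/-! ## 1. The generators and the five clauses -/

/-- The generators of `T2.IsOp`. -/
inductive IsGen429 (𝔫 : Ideal (𝓞 K)) (F : Frame K) : ((G K → ℂ) → (G K → ℂ)) → Prop
  | conv (f : G K → ℂ) (hf : IsSphTestFn 𝔫 f) : IsGen429 𝔫 F (conv F f)
  | hecke (v : HeightOneSpectrum (𝓞 K)) (hv : ¬ v.asIdeal ∣ 𝔫) (H : Finset (G K))
      (hH : IsHeckeCosetSystem v H) : IsGen429 𝔫 F (heckeSum H)
  | shift (v : HeightOneSpectrum (𝓞 K)) (hv : ¬ v.asIdeal ∣ 𝔫) (z : G K)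
      (hz : IsScalarUniformizerAt v z) : IsGen429 𝔫 F (shift z)
  | shiftInv (v : HeightOneSpectrum (𝓞 K)) (hv : ¬ v.asIdeal ∣ 𝔫) (z : G K)
      (hz : IsScalarUniformizerAt v z) : IsGen429 𝔫 F (shift z⁻¹)
  | sphere (w : InfinitePlace K) (hw : w.IsComplex) (d : ℝ) (hd : 0 < d) (Y : ℝ → ℝ → G K)
      (hY : IsSphereAt w d Y) : IsGen429 𝔫 F (sphereMean Y)
  | circle (w : InfinitePlace K) (hw : w.IsReal) (t : ℝ) (ht : 0 < t) (Y : ℝ → G K)
      (hY : IsCircleAt w t Y) : IsGen429 𝔫 F (circleMean Y)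

theorem IsGen429.isOp {𝔫 : Ideal (𝓞 K)} {F : Frame K} {T : (G K → ℂ) → (G K → ℂ)}
    (h : IsGen429 𝔫 F T) : IsOp 𝔫 F T := by
  cases h with
  | conv f hf => exact IsOp.conv f hf
  | hecke v hv H hH => exact IsOp.hecke v hv H hH
  | shift v hv z hz => exact IsOp.shift v hv z hz
  | shiftInv v hv z hz => exact IsOp.shiftInv v hv z hz
  | sphere w hw d hd Y hY => exact IsOp.sphere w hw d hd Y hY
  | circle w hw t ht Y hY => exact IsOp.circle w hw t ht Y hY

/-- Induction principle: a property of the generators which is stable under composition holds for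
all operators. -/
theorem isOp_induction429 {𝔫 : Ideal (𝓞 K)} {F : Frame K}
    {P : ((G K → ℂ) → (G K → ℂ)) → Prop}
    (hgen : ∀ T, IsGen429 𝔫 F T → P T)
    (hcomp : ∀ S T, IsOp 𝔫 F S → IsOp 𝔫 F T → P S → P T → P (fun φ => S (T φ)))
    {T : (G K → ℂ) → (G K → ℂ)} (hT : IsOp 𝔫 F T) : P T := by
  induction hT with
  | conv f hf => exact hgen _ (IsGen429.conv f hf)
  | hecke v hv H hH => exact hgen _ (IsGen429.hecke v hv H hH)
  | shift v hv z hz => exact hgen _ (IsGen429.shift v hv z hz)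
  | shiftInv v hv z hz => exact hgen _ (IsGen429.shiftInv v hv z hz)
  | sphere w hw d hd Y hY => exact hgen _ (IsGen429.sphere w hw d hd Y hY)
  | circle w hw t ht Y hY => exact hgen _ (IsGen429.circle w hw t ht Y hY)
  | comp S T hS hT ihS ihT => exact hcomp S T hS hT ihS ihT

/-- `T` preserves the cusp functions of level `U(𝔫)`. -/
def Pres429 (𝔫 : Ideal (𝓞 K)) (T : (G K → ℂ) → (G K → ℂ)) : Prop :=
  ∀ φ : G K → ℂ, IsCuspFn 𝔫 φ → IsCuspFn 𝔫 (T φ)

/-- `T` is additive and homogeneous on the cusp functions. -/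
def Lin429 (𝔫 : Ideal (𝓞 K)) (T : (G K → ℂ) → (G K → ℂ)) : Prop :=
  ∀ (φ ψ : G K → ℂ) (c : ℂ), IsCuspFn 𝔫 φ → IsCuspFn 𝔫 ψ →
    T (fun g => φ g + c * ψ g) = fun g => T φ g + c * T ψ g

/-- `T` is bounded in `L²` on the cusp functions. -/
def Bdd429 (𝔫 : Ideal (𝓞 K)) (F : Frame K) (T : (G K → ℂ) → (G K → ℂ)) : Prop :=
  ∃ C : ℝ, ∀ φ : G K → ℂ, IsCuspFn 𝔫 φ → nsq F (T φ) ≤ C * nsq F φ

/-- `S` and `T` commute on the cusp functions. -/
def Comm429 (𝔫 : Ideal (𝓞 K)) (S T : (G K → ℂ) → (G K → ℂ)) : Prop :=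
  ∀ φ : G K → ℂ, IsCuspFn 𝔫 φ → S (T φ) = T (S φ)

/-- `T'` is adjoint to `T` on the cusp functions. -/
def IsAdj429 (𝔫 : Ideal (𝓞 K)) (F : Frame K) (T T' : (G K → ℂ) → (G K → ℂ)) : Prop :=
  ∀ φ ψ : G K → ℂ, IsCuspFn 𝔫 φ → IsCuspFn 𝔫 ψ → pair F (T φ) ψ = pair F φ (T' ψ)

/-- `T` has an adjoint among the operators of the tower. -/
def HasAdj429 (𝔫 : Ideal (𝓞 K)) (F : Frame K) (T : (G K → ℂ) → (G K → ℂ)) : Prop :=
  ∃ T', IsOp 𝔫 F T' ∧ IsAdj429 𝔫 F T T'

/-- The five clauses of `OpsGood` for the generators. -/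
structure GenGood429 (𝔫 : Ideal (𝓞 K)) (F : Frame K) : Prop where
  pres : ∀ T, IsGen429 𝔫 F T → Pres429 𝔫 T
  lin : ∀ T, IsGen429 𝔫 F T → Lin429 𝔫 T
  bdd : ∀ T, IsGen429 𝔫 F T → Bdd429 𝔫 F T
  comm : ∀ S T, IsGen429 𝔫 F S → IsGen429 𝔫 F T → Comm429 𝔫 S T
  adj : ∀ T, IsGen429 𝔫 F T → HasAdj429 𝔫 F T

/-! ## 2. The assembly -/

/-- The square of the `L²`-norm is non-negative (also when the integrand is not integrable: then
the integral is `0`). -/
theorem nsq_nonneg429 (F : Frame K) (φ : G K → ℂ) : 0 ≤ nsq F φ := by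
  unfold nsq pair
  by_cases hi : Integrable (fun g => φ g * (starRingEnd ℂ) (φ g)) (F.μ.restrict F.D)
  · have h1 : (∫ g in F.D, φ g * (starRingEnd ℂ) (φ g) ∂F.μ).re
        = ∫ g in F.D, (φ g * (starRingEnd ℂ) (φ g)).re ∂F.μ := by
      have := integral_re (𝕜 := ℂ) hi
      simpa using this.symm
    rw [h1]
    apply integral_nonneg
    intro g
    simp only [Complex.mul_conj]
    exact_mod_cast Complex.normSq_nonneg (φ g)
  · rw [integral_undef hi]
    simp

theorem pres_isOp429 {𝔫 : Ideal (𝓞 K)} {F : Frame K} (h : GenGood429 𝔫 F)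
    {T : (G K → ℂ) → (G K → ℂ)} (hT : IsOp 𝔫 F T) : Pres429 𝔫 T :=
  isOp_induction429 (P := Pres429 𝔫) h.pres
    (fun _ _ _ _ hS hT φ hφ => hS _ (hT φ hφ)) hT

theorem lin_isOp429 {𝔫 : Ideal (𝓞 K)} {F : Frame K} (h : GenGood429 𝔫 F)
    {T : (G K → ℂ) → (G K → ℂ)} (hT : IsOp 𝔫 F T) : Lin429 𝔫 T := by
  refine isOp_induction429 (P := Lin429 𝔫) h.lin ?_ hT
  intro S T _ hT' hS hT φ ψ c hφ hψ
  have h1 : T (fun g => φ g + c * ψ g) = fun g => T φ g + c * T ψ g := hT φ ψ c hφ hψ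
  have h2 := hS (T φ) (T ψ) c (pres_isOp429 h hT' φ hφ) (pres_isOp429 h hT' ψ hψ)
  show S (T (fun g => φ g + c * ψ g)) = fun g => S (T φ) g + c * S (T ψ) g
  rw [h1, h2]

theorem bdd_isOp429 {𝔫 : Ideal (𝓞 K)} {F : Frame K} (h : GenGood429 𝔫 F)
    {T : (G K → ℂ) → (G K → ℂ)} (hT : IsOp 𝔫 F T) : Bdd429 𝔫 F T := by
  refine isOp_induction429 (P := Bdd429 𝔫 F) h.bdd ?_ hT
  rintro S T _ hT' ⟨C, hC⟩ ⟨C', hC'⟩
  refine ⟨max C 0 * max C' 0, fun φ hφ => ?_⟩
  have h1 : nsq F (S (T φ)) ≤ C * nsq F (T φ) := hC _ (pres_isOp429 h hT' φ hφ)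
  have h2 : nsq F (T φ) ≤ C' * nsq F φ := hC' φ hφ
  have h3 : C * nsq F (T φ) ≤ max C 0 * nsq F (T φ) :=
    mul_le_mul_of_nonneg_right (le_max_left _ _) (nsq_nonneg429 F _)
  have h4 : C' * nsq F φ ≤ max C' 0 * nsq F φ :=
    mul_le_mul_of_nonneg_right (le_max_left _ _) (nsq_nonneg429 F _)
  calc nsq F (S (T φ)) ≤ max C 0 * nsq F (T φ) := h1.trans h3
    _ ≤ max C 0 * (max C' 0 * nsq F φ) :=
        mul_le_mul_of_nonneg_left (h2.trans h4) (le_max_right _ _)
    _ = max C 0 * max C' 0 * nsq F φ := by ring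

/-- A generator commutes with every operator. -/
theorem comm_gen_isOp429 {𝔫 : Ideal (𝓞 K)} {F : Frame K} (h : GenGood429 𝔫 F)
    {S : (G K → ℂ) → (G K → ℂ)} (hS : IsGen429 𝔫 F S)
    {T : (G K → ℂ) → (G K → ℂ)} (hT : IsOp 𝔫 F T) : Comm429 𝔫 S T := by
  refine isOp_induction429 (P := Comm429 𝔫 S) (fun T hT => h.comm S T hS hT) ?_ hT
  intro T₁ T₂ _ hT₂ h₁ h₂ φ hφ
  show S (T₁ (T₂ φ)) = T₁ (T₂ (S φ))
  rw [h₁ _ (pres_isOp429 h hT₂ φ hφ), h₂ φ hφ]

theorem comm_isOp429 {𝔫 : Ideal (𝓞 K)} {F : Frame K} (h : GenGood429 𝔫 F)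
    {S T : (G K → ℂ) → (G K → ℂ)} (hS : IsOp 𝔫 F S) (hT : IsOp 𝔫 F T) : Comm429 𝔫 S T := by
  refine isOp_induction429 (P := fun S => Comm429 𝔫 S T)
    (fun S hS => comm_gen_isOp429 h hS hT) ?_ hS
  intro S₁ S₂ _ hS₂ h₁ h₂ φ hφ
  show S₁ (S₂ (T φ)) = T (S₁ (S₂ φ))
  rw [h₂ φ hφ, h₁ _ (pres_isOp429 h hS₂ φ hφ)]

theorem adj_isOp429 {𝔫 : Ideal (𝓞 K)} {F : Frame K} (h : GenGood429 𝔫 F)
    {T : (G K → ℂ) → (G K → ℂ)} (hT : IsOp 𝔫 F T) : HasAdj429 𝔫 F T := by
  refine isOp_induction429 (P := HasAdj429 𝔫 F) h.adj ?_ hT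
  rintro S T _ hT' ⟨S', hS', hSa⟩ ⟨T', hT'', hTa⟩
  refine ⟨fun ψ => T' (S' ψ), IsOp.comp T' S' hT'' hS', fun φ ψ hφ hψ => ?_⟩
  show pair F (S (T φ)) ψ = pair F φ (T' (S' ψ))
  rw [hSa _ ψ (pres_isOp429 h hT' φ hφ) hψ, hTa φ _ hφ (pres_isOp429 h hS' ψ hψ)]

/-- **ASSEMBLY**: the five clauses for the generators give `OpsGood`. -/
theorem opsGood_of_genGood429 {𝔫 : Ideal (𝓞 K)} (h : ∀ F : Frame K, GenGood429 𝔫 F) :
    OpsGood K 𝔫 := fun F =>
  ⟨fun _ hT => pres_isOp429 (h F) hT, fun _ hT => lin_isOp429 (h F) hT,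
    fun _ hT => bdd_isOp429 (h F) hT, fun _ _ hS hT => comm_isOp429 (h F) hS hT,
    fun _ hT => adj_isOp429 (h F) hT⟩

/-! ## 3. Formal facts (no hypothesis) -/

theorem Comm429.symm {𝔫 : Ideal (𝓞 K)} {S T : (G K → ℂ) → (G K → ℂ)} (h : Comm429 𝔫 S T) :
    Comm429 𝔫 T S := fun φ hφ => (h φ hφ).symm

/-- Hecke sums are additive and homogeneous (on all functions). -/
theorem lin_heckeSum429 (𝔫 : Ideal (𝓞 K)) (H : Finset (G K)) : Lin429 𝔫 (heckeSum H) := by
  intro φ ψ c _ _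
  funext g
  simp only [heckeSum, Finset.sum_add_distrib, Finset.mul_sum]

/-- Shifts are additive and homogeneous (on all functions). -/
theorem lin_shift429 (𝔫 : Ideal (𝓞 K)) (z : G K) : Lin429 𝔫 (shift z) := by
  intro φ ψ c _ _
  rfl

/-- The shift by a central element commutes with every generator (on all functions). -/
theorem comm_shift_gen429 {𝔫 : Ideal (𝓞 K)} {F : Frame K} {z : G K}
    (hz : ∀ g : G K, g * z = z * g) {T : (G K → ℂ) → (G K → ℂ)} (hT : IsGen429 𝔫 F T) :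
    Comm429 𝔫 (shift z) T := by
  intro φ _
  have key : ∀ x h : G K, x * z * h = x * h * z := fun x h => by
    rw [mul_assoc, ← hz h, mul_assoc]
  cases hT with
  | conv f hf =>
    funext x
    simp only [shift, conv, key]
  | hecke v hv H hH =>
    funext x
    simp only [shift, heckeSum, key]
  | shift v hv z' hz' =>
    funext x
    simp only [shift, key]
  | shiftInv v hv z' hz' =>
    funext x
    simp only [shift, key]
  | sphere w hw d hd Y hY =>
    funext x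
    simp only [shift, sphereMean, key]
  | circle w hw t ht Y hY =>
    funext x
    simp only [shift, circleMean, key]

/-- The inverse of a central element is central. -/
theorem central_inv429 {z : G K} (hz : ∀ g : G K, g * z = z * g) (g : G K) :
    g * z⁻¹ = z⁻¹ * g := by
  have h := hz (z⁻¹ * g * z⁻¹)
  have h1 : z⁻¹ * g * z⁻¹ * z = z⁻¹ * g := by group
  have h2 : z * (z⁻¹ * g * z⁻¹) = g * z⁻¹ := by group
  rw [h1, h2] at h
  exact h.symm

/-! ## 4. The standing hypotheses and the sub-leaves (registry rows `T2.07.x`) -/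

/-- The standing hypotheses of `T2.Leaf07`. -/
structure Ctx429 (K : Type) [Field K] [NumberField K] (𝔫 : Ideal (𝓞 K)) : Prop where
  t1 : T1.T1Out K
  ne : 𝔫 ≠ ⊥
  pd : PairDefinite K 𝔫
  cc : ConvCusp K 𝔫

/-- **T2.07.00** (KEY LEMMA, invariance of the Petersson integral under right translations):
for a continuous bounded function `Φ`, left invariant under `GL₂(K)` and right invariant under
`Z⁺`, `∫_D Φ(g h) dμ(g) = ∫_D Φ(g) dμ(g)` for every `h ∈ GL₂(𝔸_K)`.
Proof: `T1.UnimodC` (right invariance of `μ`), `T1.AdNormC` (the slab is `GL₂(K)`-invariant and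
`‖det z‖ = r^{2n}` on `Z⁺`, so `h` may be normalised to `‖det h‖ = 1`), then `D h` and `D` are
two fundamental domains of `GL₂(K)` in the slab (`IsFundamentalDomain.setIntegral_eq` for the
restriction of `μ` to the slab). -/
def SubTransl429 (K : Type) [Field K] [NumberField K] : Prop :=
  T1.T1Out K → ∀ (F : Frame K) (Φ : G K → ℂ), Continuous Φ → (∃ C : ℝ, ∀ g : G K, ‖Φ g‖ ≤ C) →
    (∀ (γ : GL (Fin 2) K) (g : G K), Φ (T1.ratG K γ * g) = Φ g) →
    (∀ z : G K, IsDiagPosScalar z → ∀ g : G K, Φ (g * z) = Φ g) →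
    ∀ h : G K, ∫ g in F.D, Φ (g * h) ∂F.μ = ∫ g in F.D, Φ g ∂F.μ

/-- **T2.07.01** a scalar uniformiser is central. -/
def SubCentral429 (K : Type) [Field K] [NumberField K] : Prop :=
  ∀ (v : HeightOneSpectrum (𝓞 K)) (z : G K), IsScalarUniformizerAt v z →
    ∀ g : G K, g * z = z * g

/-- **T2.07.02** Hecke sums preserve the cusp functions (`T1.HeckeCosetC`: `u h = h' k`;
`T1.AddFundDomC`: the constant term is an integral over a set of finite measure). -/
def SubHeckePres429 (K : Type) [Field K] [NumberField K] : Prop :=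
  ∀ 𝔫 : Ideal (𝓞 K), Ctx429 K 𝔫 → ∀ (v : HeightOneSpectrum (𝓞 K)), ¬ v.asIdeal ∣ 𝔫 →
    ∀ H : Finset (G K), IsHeckeCosetSystem v H → Pres429 𝔫 (heckeSum H)

/-- **T2.07.03** `‖T_H φ‖² ≤ (q_v + 1)² ‖φ‖²` (Cauchy--Schwarz and the KEY LEMMA). -/
def SubHeckeBdd429 (K : Type) [Field K] [NumberField K] : Prop :=
  ∀ 𝔫 : Ideal (𝓞 K), Ctx429 K 𝔫 → ∀ (F : Frame K) (v : HeightOneSpectrum (𝓞 K)),
    ¬ v.asIdeal ∣ 𝔫 → ∀ H : Finset (G K), IsHeckeCosetSystem v H → Bdd429 𝔫 F (heckeSum H)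

/-- **T2.07.04** `T_v* = S_v⁻¹ T_v`: `B(h) = ∫_D φ(g h) ψ̄(g)` is bi-invariant under `GL₂(𝒪_v)`
(KEY LEMMA), and `h`, `h⁻¹ z` lie in the same double coset `GL₂(𝒪_v) diag(ϖ, 1) GL₂(𝒪_v)`. -/
def SubHeckeAdj429 (K : Type) [Field K] [NumberField K] : Prop :=
  ∀ 𝔫 : Ideal (𝓞 K), Ctx429 K 𝔫 → ∀ (F : Frame K) (v : HeightOneSpectrum (𝓞 K)),
    ¬ v.asIdeal ∣ 𝔫 → ∀ H : Finset (G K), IsHeckeCosetSystem v H →
    ∀ z : G K, IsScalarUniformizerAt v z →
      IsAdj429 𝔫 F (heckeSum H) (fun ψ => shift z⁻¹ (heckeSum H ψ))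

/-- **T2.07.05** the shifts by a scalar uniformiser and by its inverse preserve the cusp
functions. -/
def SubShiftPres429 (K : Type) [Field K] [NumberField K] : Prop :=
  ∀ 𝔫 : Ideal (𝓞 K), Ctx429 K 𝔫 → ∀ (v : HeightOneSpectrum (𝓞 K)), ¬ v.asIdeal ∣ 𝔫 →
    ∀ z : G K, IsScalarUniformizerAt v z → Pres429 𝔫 (shift z) ∧ Pres429 𝔫 (shift z⁻¹)

/-- **T2.07.06** the shifts are isometries (KEY LEMMA). -/
def SubShiftBdd429 (K : Type) [Field K] [NumberField K] : Prop :=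
  ∀ 𝔫 : Ideal (𝓞 K), Ctx429 K 𝔫 → ∀ (F : Frame K) (v : HeightOneSpectrum (𝓞 K)),
    ¬ v.asIdeal ∣ 𝔫 → ∀ z : G K, IsScalarUniformizerAt v z →
      Bdd429 𝔫 F (shift z) ∧ Bdd429 𝔫 F (shift z⁻¹)

/-- **T2.07.07** `S_v* = S_v⁻¹` (KEY LEMMA). -/
def SubShiftAdj429 (K : Type) [Field K] [NumberField K] : Prop :=
  ∀ 𝔫 : Ideal (𝓞 K), Ctx429 K 𝔫 → ∀ (F : Frame K) (v : HeightOneSpectrum (𝓞 K)),
    ¬ v.asIdeal ∣ 𝔫 → ∀ z : G K, IsScalarUniformizerAt v z →
      IsAdj429 𝔫 F (shift z) (shift z⁻¹) ∧ IsAdj429 𝔫 F (shift z⁻¹) (shift z)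

/-- **T2.07.08** convolutions are additive and homogeneous on the cusp functions
(integrability: `f` continuous with compact support, `φ` continuous and bounded). -/
def SubConvLin429 (K : Type) [Field K] [NumberField K] : Prop :=
  ∀ 𝔫 : Ideal (𝓞 K), Ctx429 K 𝔫 → ∀ (F : Frame K) (f : G K → ℂ), IsSphTestFn 𝔫 f →
    Lin429 𝔫 (conv F f)

/-- **T2.07.09** `‖R(f) φ‖² ≤ ‖f‖₁² ‖φ‖²` (Cauchy--Schwarz, Tonelli, KEY LEMMA). -/
def SubConvBdd429 (K : Type) [Field K] [NumberField K] : Prop :=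
  ∀ 𝔫 : Ideal (𝓞 K), Ctx429 K 𝔫 → ∀ (F : Frame K) (f : G K → ℂ), IsSphTestFn 𝔫 f →
    Bdd429 𝔫 F (conv F f)

/-- **T2.07.10** two Hecke sums commute on the cusp functions (different places: the elements
commute; same place: independence of the coset system, asset helper129
`heckeSum_indep_level129`). -/
def SubCommHeckeHecke429 (K : Type) [Field K] [NumberField K] : Prop :=
  ∀ 𝔫 : Ideal (𝓞 K), Ctx429 K 𝔫 →
    ∀ (v : HeightOneSpectrum (𝓞 K)), ¬ v.asIdeal ∣ 𝔫 → ∀ H : Finset (G K),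
    IsHeckeCosetSystem v H →
    ∀ (v' : HeightOneSpectrum (𝓞 K)), ¬ v'.asIdeal ∣ 𝔫 → ∀ H' : Finset (G K),
    IsHeckeCosetSystem v' H' → Comm429 𝔫 (heckeSum H) (heckeSum H')

/-- **T2.07.11** a convolution by a spherical test function commutes with a Hecke sum
(commutativity of the spherical Hecke algebra at `v`: Cartan decomposition at `v`, asset
helper129 `cartan129`; a coset system of SYMMETRIC matrices
`[[ϖ + a², a], [a, 1]]`, `[[1, 0], [0, ϖ]]`; `f` is invariant under the transposition at `v`).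
[Bump, Thm 4.6.1]. -/
def SubCommConvHecke429 (K : Type) [Field K] [NumberField K] : Prop :=
  ∀ 𝔫 : Ideal (𝓞 K), Ctx429 K 𝔫 → ∀ (F : Frame K) (f : G K → ℂ), IsSphTestFn 𝔫 f →
    ∀ (v : HeightOneSpectrum (𝓞 K)), ¬ v.asIdeal ∣ 𝔫 → ∀ H : Finset (G K),
    IsHeckeCosetSystem v H → Comm429 𝔫 (conv F f) (heckeSum H)

/-- **T2.07.12** sphere means preserve the cusp functions.  The invariance under `U(2)` at the
place of the mean is the invariance of `sin β dβ dα` under the rotations of `S²`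
(`SubS2Rot429`); continuity of `Y` by `SubLocCont429`. -/
def SubSpherePres429 (K : Type) [Field K] [NumberField K] : Prop :=
  ∀ 𝔫 : Ideal (𝓞 K), Ctx429 K 𝔫 → ∀ (w : InfinitePlace K), w.IsComplex → ∀ d : ℝ, 0 < d →
    ∀ Y : ℝ → ℝ → G K, IsSphereAt w d Y → Pres429 𝔫 (sphereMean Y)

/-- **T2.07.13** circle means preserve the cusp functions (the circle is a one-parameter
group: periodicity). -/
def SubCirclePres429 (K : Type) [Field K] [NumberField K] : Prop :=
  ∀ 𝔫 : Ideal (𝓞 K), Ctx429 K 𝔫 → ∀ (w : InfinitePlace K), w.IsReal → ∀ t : ℝ, 0 < t →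
    ∀ Y : ℝ → G K, IsCircleAt w t Y → Pres429 𝔫 (circleMean Y)

/-- **T2.07.14** sphere and circle means are additive and homogeneous on the cusp functions. -/
def SubMeanLin429 (K : Type) [Field K] [NumberField K] : Prop :=
  ∀ 𝔫 : Ideal (𝓞 K), Ctx429 K 𝔫 →
    (∀ (w : InfinitePlace K), w.IsComplex → ∀ d : ℝ, 0 < d →
      ∀ Y : ℝ → ℝ → G K, IsSphereAt w d Y → Lin429 𝔫 (sphereMean Y)) ∧
    (∀ (w : InfinitePlace K), w.IsReal → ∀ t : ℝ, 0 < t →
      ∀ Y : ℝ → G K, IsCircleAt w t Y → Lin429 𝔫 (circleMean Y))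

/-- **T2.07.15** `‖M φ‖² ≤ (4π)² ‖φ‖²`, resp. `(2π)² ‖φ‖²` (Cauchy--Schwarz, Fubini, KEY LEMMA). -/
def SubMeanBdd429 (K : Type) [Field K] [NumberField K] : Prop :=
  ∀ 𝔫 : Ideal (𝓞 K), Ctx429 K 𝔫 → ∀ F : Frame K,
    (∀ (w : InfinitePlace K), w.IsComplex → ∀ d : ℝ, 0 < d →
      ∀ Y : ℝ → ℝ → G K, IsSphereAt w d Y → Bdd429 𝔫 F (sphereMean Y)) ∧
    (∀ (w : InfinitePlace K), w.IsReal → ∀ t : ℝ, 0 < t →
      ∀ Y : ℝ → G K, IsCircleAt w t Y → Bdd429 𝔫 F (circleMean Y))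

/-- **T2.07.16** sphere and circle means are self-adjoint: `B(h) = ∫_D φ(g h) ψ̄(g)` is
bi-invariant under the compact group at `w` and under the positive scalars (KEY LEMMA), and
`torus(d)⁻¹ = w₀ torus(d) w₀⁻¹` with `w₀ = [[0, 1], [-1, 0]]`. -/
def SubMeanAdj429 (K : Type) [Field K] [NumberField K] : Prop :=
  ∀ 𝔫 : Ideal (𝓞 K), Ctx429 K 𝔫 → ∀ F : Frame K,
    (∀ (w : InfinitePlace K), w.IsComplex → ∀ d : ℝ, 0 < d →
      ∀ Y : ℝ → ℝ → G K, IsSphereAt w d Y → IsAdj429 𝔫 F (sphereMean Y) (sphereMean Y)) ∧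
    (∀ (w : InfinitePlace K), w.IsReal → ∀ t : ℝ, 0 < t →
      ∀ Y : ℝ → G K, IsCircleAt w t Y → IsAdj429 𝔫 F (circleMean Y) (circleMean Y))

/-- **T2.07.17** sphere and circle means commute with the Hecke sums (the elements commute;
the integral of a finite sum). -/
def SubCommMeanHecke429 (K : Type) [Field K] [NumberField K] : Prop :=
  ∀ 𝔫 : Ideal (𝓞 K), Ctx429 K 𝔫 →
    ∀ (v : HeightOneSpectrum (𝓞 K)), ¬ v.asIdeal ∣ 𝔫 → ∀ H : Finset (G K),
    IsHeckeCosetSystem v H →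
    (∀ (w : InfinitePlace K), w.IsComplex → ∀ d : ℝ, 0 < d →
      ∀ Y : ℝ → ℝ → G K, IsSphereAt w d Y → Comm429 𝔫 (sphereMean Y) (heckeSum H)) ∧
    (∀ (w : InfinitePlace K), w.IsReal → ∀ t : ℝ, 0 < t →
      ∀ Y : ℝ → G K, IsCircleAt w t Y → Comm429 𝔫 (circleMean Y) (heckeSum H))

/-- **T2.07.18** two sphere means commute on the cusp functions.  Different places: Fubini.
Same place: `⟨M_d M_d' φ, ψ⟩ = 4π ∫ B(torus d · k_s · torus d') ds` is symmetric in `(d, d')`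
because `B` is invariant under the transposition at `w` (Cartan decomposition
`GL₂(ℂ) = U(2) A U(2)`); then `PairDefinite`. [Helgason, GGA IV §2]. -/
def SubCommSphereSphere429 (K : Type) [Field K] [NumberField K] : Prop :=
  ∀ 𝔫 : Ideal (𝓞 K), Ctx429 K 𝔫 →
    ∀ (w : InfinitePlace K), w.IsComplex → ∀ d : ℝ, 0 < d →
    ∀ Y : ℝ → ℝ → G K, IsSphereAt w d Y →
    ∀ (w' : InfinitePlace K), w'.IsComplex → ∀ d' : ℝ, 0 < d' →
    ∀ Y' : ℝ → ℝ → G K, IsSphereAt w' d' Y' → Comm429 𝔫 (sphereMean Y) (sphereMean Y')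

/-- **T2.07.19** a sphere mean and a circle mean commute (different places: Fubini). -/
def SubCommSphereCircle429 (K : Type) [Field K] [NumberField K] : Prop :=
  ∀ 𝔫 : Ideal (𝓞 K), Ctx429 K 𝔫 →
    ∀ (w : InfinitePlace K), w.IsComplex → ∀ d : ℝ, 0 < d →
    ∀ Y : ℝ → ℝ → G K, IsSphereAt w d Y →
    ∀ (w' : InfinitePlace K), w'.IsReal → ∀ t : ℝ, 0 < t →
    ∀ Y' : ℝ → G K, IsCircleAt w' t Y' → Comm429 𝔫 (sphereMean Y) (circleMean Y')

/-- **T2.07.20** two circle means commute (as T2.07.18, with `GL₂(ℝ) = SO(2) A SO(2)`). -/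
def SubCommCircleCircle429 (K : Type) [Field K] [NumberField K] : Prop :=
  ∀ 𝔫 : Ideal (𝓞 K), Ctx429 K 𝔫 →
    ∀ (w : InfinitePlace K), w.IsReal → ∀ t : ℝ, 0 < t →
    ∀ Y : ℝ → G K, IsCircleAt w t Y →
    ∀ (w' : InfinitePlace K), w'.IsReal → ∀ t' : ℝ, 0 < t' →
    ∀ Y' : ℝ → G K, IsCircleAt w' t' Y' → Comm429 𝔫 (circleMean Y) (circleMean Y')

/-- **T2.07.21** a convolution by a spherical test function commutes with the sphere and the
circle means (Gelfand's trick at `w`: the transposition at `w` preserves the Haar measure of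
`GL₂(𝔸_K)`, `f` and `B`; `∫ f(h) B(a h) dh = ∫ f(h) B(h a) dh`; then `PairDefinite`).
[Helgason, GGA IV §3], [Lang, `SL₂(ℝ)`, ch. IV]. -/
def SubCommConvMean429 (K : Type) [Field K] [NumberField K] : Prop :=
  ∀ 𝔫 : Ideal (𝓞 K), Ctx429 K 𝔫 → ∀ (F : Frame K) (f : G K → ℂ), IsSphTestFn 𝔫 f →
    (∀ (w : InfinitePlace K), w.IsComplex → ∀ d : ℝ, 0 < d →
      ∀ Y : ℝ → ℝ → G K, IsSphereAt w d Y → Comm429 𝔫 (conv F f) (sphereMean Y)) ∧
    (∀ (w : InfinitePlace K), w.IsReal → ∀ t : ℝ, 0 < t →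
      ∀ Y : ℝ → G K, IsCircleAt w t Y → Comm429 𝔫 (conv F f) (circleMean Y))

/-! ### Auxiliary sub-leaves (Mathlib only; inputs of T2.07.12 -- T2.07.21) -/

/-- **T2.07.30** a family of elements supported at the infinite place `w` with continuous
components is continuous (so the parametrisations `Y` of `IsSphereAt`, `IsCircleAt` are
continuous). -/
def SubLocCont429 (K : Type) [Field K] [NumberField K] : Prop :=
  ∀ (w : InfinitePlace K) (X : Type) [TopologicalSpace X] (h : X → G K),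
    (∀ x, IsLocalAtInf w (h x)) →
    (∀ i j : Fin 2, Continuous fun x => infComp w (h x) i j) → Continuous h

/-- **T2.07.31** invariance of the measure `sin β dβ dα` of `S² = U(2) / (U(1) × U(1))` under
the rotations, in Euler angles: for `ψ` continuous on `GL₂(ℂ)`, right invariant under `U(2)`. -/
def SubS2Rot429 : Prop :=
  ∀ ψ : Matrix (Fin 2) (Fin 2) ℂ → ℂ, ContinuousOn ψ {m | m.det ≠ 0} →
    (∀ m k : Matrix (Fin 2) (Fin 2) ℂ, k * k.conjTranspose = 1 → ψ (m * k) = ψ m) →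
    ∀ k₀ : Matrix (Fin 2) (Fin 2) ℂ, k₀ * k₀.conjTranspose = 1 → ∀ d : ℝ,
      (∫ α in (0 : ℝ)..(2 * Real.pi), ∫ β in (0 : ℝ)..Real.pi,
          ψ (k₀ * (rotZ α * rotY β * torus d)) * ((Real.sin β : ℝ) : ℂ))
        = ∫ α in (0 : ℝ)..(2 * Real.pi), ∫ β in (0 : ℝ)..Real.pi,
          ψ (rotZ α * rotY β * torus d) * ((Real.sin β : ℝ) : ℂ)

/-- **T2.07.32** Cartan decomposition at the infinite places: `GL₂(ℂ) = U(2) A U(2)` with `A`
diagonal, and for a real matrix the factors are real and in `SO(2)`. -/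
def SubCartanInf429 : Prop :=
  ∀ g : Matrix (Fin 2) (Fin 2) ℂ, g.det ≠ 0 →
    ∃ k₁ k₂ : Matrix (Fin 2) (Fin 2) ℂ, ∃ a b : ℂ,
      k₁ * k₁.conjTranspose = 1 ∧ k₂ * k₂.conjTranspose = 1 ∧
      g = k₁ * Matrix.diagonal ![a, b] * k₂ ∧
      ((∀ i j, (g i j).im = 0) →
        (∀ i j, (k₁ i j).im = 0) ∧ (∀ i j, (k₂ i j).im = 0) ∧ k₁.det = 1 ∧ k₂.det = 1 ∧
          a.im = 0 ∧ b.im = 0)

/-- ALL SUB-LEAVES of `T2.Leaf07`. -/
structure Sub429 (K : Type) [Field K] [NumberField K] : Prop where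
  central : SubCentral429 K
  heckePres : SubHeckePres429 K
  heckeBdd : SubHeckeBdd429 K
  heckeAdj : SubHeckeAdj429 K
  shiftPres : SubShiftPres429 K
  shiftBdd : SubShiftBdd429 K
  shiftAdj : SubShiftAdj429 K
  convLin : SubConvLin429 K
  convBdd : SubConvBdd429 K
  commHeckeHecke : SubCommHeckeHecke429 K
  commConvHecke : SubCommConvHecke429 K
  spherePres : SubSpherePres429 K
  circlePres : SubCirclePres429 K
  meanLin : SubMeanLin429 K
  meanBdd : SubMeanBdd429 K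
  meanAdj : SubMeanAdj429 K
  commMeanHecke : SubCommMeanHecke429 K
  commSphereSphere : SubCommSphereSphere429 K
  commSphereCircle : SubCommSphereCircle429 K
  commCircleCircle : SubCommCircleCircle429 K
  commConvMean : SubCommConvMean429 K

/-! ## 5. The leaf from the sub-leaves -/

theorem genGood_of_sub429 (S : Sub429 K) {𝔫 : Ideal (𝓞 K)} (c : Ctx429 K 𝔫) (F : Frame K) :
    GenGood429 𝔫 F := by
  have hcen : ∀ (v : HeightOneSpectrum (𝓞 K)) (z : G K), IsScalarUniformizerAt v z →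
      ∀ g : G K, g * z = z * g := S.central
  have hcc := c.cc F
  refine ⟨?_, ?_, ?_, ?_, ?_⟩
  · -- preservation
    intro T hT
    cases hT with
    | conv f hf => exact fun φ hφ => hcc.2.2.1 f φ hf.test hφ
    | hecke v hv H hH => exact S.heckePres 𝔫 c v hv H hH
    | shift v hv z hz => exact (S.shiftPres 𝔫 c v hv z hz).1
    | shiftInv v hv z hz => exact (S.shiftPres 𝔫 c v hv z hz).2
    | sphere w hw d hd Y hY => exact S.spherePres 𝔫 c w hw d hd Y hY
    | circle w hw t ht Y hY => exact S.circlePres 𝔫 c w hw t ht Y hY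
  · -- linearity
    intro T hT
    cases hT with
    | conv f hf => exact S.convLin 𝔫 c F f hf
    | hecke v hv H hH => exact lin_heckeSum429 𝔫 H
    | shift v hv z hz => exact lin_shift429 𝔫 z
    | shiftInv v hv z hz => exact lin_shift429 𝔫 z⁻¹
    | sphere w hw d hd Y hY => exact (S.meanLin 𝔫 c).1 w hw d hd Y hY
    | circle w hw t ht Y hY => exact (S.meanLin 𝔫 c).2 w hw t ht Y hY
  · -- bounds
    intro T hT
    cases hT with
    | conv f hf => exact S.convBdd 𝔫 c F f hf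
    | hecke v hv H hH => exact S.heckeBdd 𝔫 c F v hv H hH
    | shift v hv z hz => exact (S.shiftBdd 𝔫 c F v hv z hz).1
    | shiftInv v hv z hz => exact (S.shiftBdd 𝔫 c F v hv z hz).2
    | sphere w hw d hd Y hY => exact (S.meanBdd 𝔫 c F).1 w hw d hd Y hY
    | circle w hw t ht Y hY => exact (S.meanBdd 𝔫 c F).2 w hw t ht Y hY
  · -- commutation
    intro T₁ T₂ h₁ h₂
    cases h₁ with
    | shift v hv z hz => exact comm_shift_gen429 (hcen v z hz) h₂
    | shiftInv v hv z hz => exact comm_shift_gen429 (central_inv429 (hcen v z hz)) h₂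
    | conv f hf =>
      cases h₂ with
      | conv f' hf' => exact fun φ hφ => hcc.2.2.2.2 f f' φ hf hf' hφ
      | hecke v hv H hH => exact S.commConvHecke 𝔫 c F f hf v hv H hH
      | shift v hv z hz =>
        exact (comm_shift_gen429 (hcen v z hz) (IsGen429.conv (F := F) f hf)).symm
      | shiftInv v hv z hz =>
        exact (comm_shift_gen429 (central_inv429 (hcen v z hz))
          (IsGen429.conv (F := F) f hf)).symm
      | sphere w hw d hd Y hY => exact (S.commConvMean 𝔫 c F f hf).1 w hw d hd Y hY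
      | circle w hw t ht Y hY => exact (S.commConvMean 𝔫 c F f hf).2 w hw t ht Y hY
    | hecke v hv H hH =>
      cases h₂ with
      | conv f' hf' => exact (S.commConvHecke 𝔫 c F f' hf' v hv H hH).symm
      | hecke v' hv' H' hH' => exact S.commHeckeHecke 𝔫 c v hv H hH v' hv' H' hH'
      | shift v' hv' z hz =>
        exact (comm_shift_gen429 (hcen v' z hz) (IsGen429.hecke (F := F) v hv H hH)).symm
      | shiftInv v' hv' z hz =>
        exact (comm_shift_gen429 (central_inv429 (hcen v' z hz))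
          (IsGen429.hecke (F := F) v hv H hH)).symm
      | sphere w hw d hd Y hY => exact ((S.commMeanHecke 𝔫 c v hv H hH).1 w hw d hd Y hY).symm
      | circle w hw t ht Y hY => exact ((S.commMeanHecke 𝔫 c v hv H hH).2 w hw t ht Y hY).symm
    | sphere w hw d hd Y hY =>
      cases h₂ with
      | conv f' hf' => exact ((S.commConvMean 𝔫 c F f' hf').1 w hw d hd Y hY).symm
      | hecke v hv H hH => exact (S.commMeanHecke 𝔫 c v hv H hH).1 w hw d hd Y hY
      | shift v' hv' z hz =>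
        exact (comm_shift_gen429 (hcen v' z hz)
          (IsGen429.sphere (𝔫 := 𝔫) (F := F) w hw d hd Y hY)).symm
      | shiftInv v' hv' z hz =>
        exact (comm_shift_gen429 (central_inv429 (hcen v' z hz))
          (IsGen429.sphere (𝔫 := 𝔫) (F := F) w hw d hd Y hY)).symm
      | sphere w' hw' d' hd' Y' hY' =>
        exact S.commSphereSphere 𝔫 c w hw d hd Y hY w' hw' d' hd' Y' hY'
      | circle w' hw' t ht Y' hY' =>
        exact S.commSphereCircle 𝔫 c w hw d hd Y hY w' hw' t ht Y' hY'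
    | circle w hw t ht Y hY =>
      cases h₂ with
      | conv f' hf' => exact ((S.commConvMean 𝔫 c F f' hf').2 w hw t ht Y hY).symm
      | hecke v hv H hH => exact (S.commMeanHecke 𝔫 c v hv H hH).2 w hw t ht Y hY
      | shift v' hv' z hz =>
        exact (comm_shift_gen429 (hcen v' z hz)
          (IsGen429.circle (𝔫 := 𝔫) (F := F) w hw t ht Y hY)).symm
      | shiftInv v' hv' z hz =>
        exact (comm_shift_gen429 (central_inv429 (hcen v' z hz))
          (IsGen429.circle (𝔫 := 𝔫) (F := F) w hw t ht Y hY)).symm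
      | sphere w' hw' d' hd' Y' hY' =>
        exact (S.commSphereCircle 𝔫 c w' hw' d' hd' Y' hY' w hw t ht Y hY).symm
      | circle w' hw' t' ht' Y' hY' =>
        exact S.commCircleCircle 𝔫 c w hw t ht Y hY w' hw' t' ht' Y' hY'
  · -- adjoints
    intro T hT
    cases hT with
    | conv f hf =>
      exact ⟨conv F (adj f), IsOp.conv _ (hcc.2.1 f hf),
        fun φ ψ hφ hψ => hcc.2.2.2.1 f φ ψ hf.test hφ hψ⟩
    | hecke v hv H hH =>
      obtain ⟨z, hz⟩ := (c.t1.heckeCoset v).2.2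
      exact ⟨fun ψ => shift z⁻¹ (heckeSum H ψ),
        IsOp.comp _ _ (IsOp.shiftInv v hv z hz) (IsOp.hecke v hv H hH),
        S.heckeAdj 𝔫 c F v hv H hH z hz⟩
    | shift v hv z hz =>
      exact ⟨shift z⁻¹, IsOp.shiftInv v hv z hz, (S.shiftAdj 𝔫 c F v hv z hz).1⟩
    | shiftInv v hv z hz =>
      exact ⟨shift z, IsOp.shift v hv z hz, (S.shiftAdj 𝔫 c F v hv z hz).2⟩
    | sphere w hw d hd Y hY =>
      exact ⟨sphereMean Y, IsOp.sphere w hw d hd Y hY, (S.meanAdj 𝔫 c F).1 w hw d hd Y hY⟩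
    | circle w hw t ht Y hY =>
      exact ⟨circleMean Y, IsOp.circle w hw t ht Y hY, (S.meanAdj 𝔫 c F).2 w hw t ht Y hY⟩

/-- **`OpsGood` FROM THE SUB-LEAVES** (the first half of `T2.Leaf07` of Spec v3; the second
half `OpsAdj` is `T2.07.04`, `T2.07.16` and the unitarity of the shifts, see `Leaf07.lean`).
v2 of this file: ONLY this theorem was changed (it was `leaf07_of_sub429 : Sub429 K → Leaf07 K`
against Spec v2); every definition and every `Sub…429` Prop above is textually unchanged. -/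
theorem opsGood_of_sub429 (S : Sub429 K) (hT1 : T1.T1Out K) (𝔫 : Ideal (𝓞 K)) (h𝔫 : 𝔫 ≠ ⊥)
    (hP : PairDefinite K 𝔫) (hC : ConvCusp K 𝔫) : OpsGood K 𝔫 :=
  opsGood_of_genGood429 fun F => genGood_of_sub429 S ⟨hT1, h𝔫, hP, hC⟩ F

end Fermat.Agent.LT.T2.H429

end
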