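import Fermat.Agent.LT.T2.H429.Closed
import Fermat.Agent.LT.T2.H90.SpherePresClosed
import Fermat.Agent.LT.T2.H841.CommSphere
import Fermat.Agent.LT.T2.H878.CommConvMeanClosed
import Fermat.Agent.LT.T2.H555.CartanInfAdapter

/-!
# Row LT, tower T2, leaf T2.07 (helper429): CLOSED, UNCONDITIONAL

OFF-MAIN.  `leaf07_429 (K) : T2.Leaf07 K` against `T2/Spec.lean` v3 (sha256 b934629a): the three
sub-leaves left open in `Closed.lean` are discharged by

| sub-leaf | closed by |
|---|---|
| T2.07.12 `SubSpherePres429` | helper90 `subSpherePresClosed_h90` |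
| T2.07.18 `SubCommSphereSphere429` | helper841 `subCommSphereSphere841` |
| T2.07.21 `SubCommConvMean429` | helper878 `subCommConvMean_closed878` |
| T2.07.31 `SubS2Rot429` (tool) | helper197 `subS2Rot197` |
| T2.07.32 `SubCartanInf429` (tool) | helper555 `subCartanInf555` |

All the volunteers' files are byte-identical copies, rebuilt here.
-/

set_option autoImplicit false

open IsDedekindDomain NumberField MeasureTheory
open Fermat.Agent.LT.H556.A0
open Fermat.Agent.LT.T2

namespace Fermat.Agent.LT.T2.H429

variable (K : Type) [Field K] [NumberField K]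

/-- The open part of `Closed.lean`, closed. -/
theorem open429 : Open429 K where
  spherePres := Fermat.Agent.LT.T2.H90.subSpherePresClosed_h90 K
  commSphereSphere := Fermat.Agent.LT.T2.H841.subCommSphereSphere841
    (Fermat.Agent.LT.T2.H90.subSpherePresClosed_h90 K)
    (Fermat.Agent.LT.T2.H472.subLocCont472 K)
    Fermat.Agent.LT.T2.H555.subCartanInf555
  commConvMean := Fermat.Agent.LT.T2.H878.subCommConvMean_closed878 K

/-- All the sub-leaves of T2.07. -/
theorem sub429 : Sub429 K := sub_of_open429 (open429 K)

/-- **LEAF T2.07, CLOSED** (Spec v3): `OpsGood K 𝔫 ∧ OpsAdj K 𝔫` for every level. -/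
theorem leaf07_429 : Leaf07 K := leaf07_of_open429 (open429 K)

end Fermat.Agent.LT.T2.H429
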