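import Mathlib
import Fermat.Agent.LT.H556.A0
import Fermat.Agent.LT.T1.H793.AdeleProj
import Fermat.Agent.LT.H129.Local

/-!
# Row LT, tower T2, leaf T2.07 (helper429): local elements of `GL₂(𝔸_K)`

OFF-MAIN.  On the assets of helper129 (`LT/H129/{Comp,Local}.lean`: components `infCompHom129`,
`finCompHom129`, extensionality `G_ext129`, local embedding `locFin129` at a finite place) and of
helper793 (`LT/T1/H793/AdeleProj.lean`: `glMk793`), byte-identical copies.

* `infMk429 : (∀ w, GL₂(K_w)) →* GL₂(𝔸_K)`, `locInf429 w : GL₂(K_w) →* GL₂(𝔸_K)`;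
* `isLocalAtInf_iff429`, `eq_locInf429_of_isLocalAtInf`;
* `commute_of_disjoint429`: elements with disjoint supports commute;
* `central_of_scalar_comp429`: an element all of whose components are scalar matrices is central.
-/

set_option autoImplicit false
set_option linter.style.haveILetI false
set_option linter.unusedSectionVars false

open IsDedekindDomain NumberField
open Fermat.Agent.LT.H556.A0
open Fermat.Agent.LT.H129
open Fermat.Agent.LT.T1.H793

noncomputable section

namespace Fermat.Agent.LT.T2.H429

variable {K : Type} [Field K] [NumberField K]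

theorem projInf_eq429 (w : InfinitePlace K) : projInf793 w = evI129 w :=
  RingHom.ext fun _ => rfl

theorem projFin_eq429 (v : HeightOneSpectrum (𝓞 K)) : projFin793 v = evF129 v :=
  RingHom.ext fun _ => rfl

theorem glInf_eq429 (w : InfinitePlace K) (g : G K) : glInf793 w g = infCompHom129 w g := by
  apply Units.ext
  rfl

theorem glFin_eq429 (v : HeightOneSpectrum (𝓞 K)) (g : G K) :
    glFin793 v g = finCompHom129 v g := by
  apply Units.ext
  rfl

theorem one_integral429 (v : HeightOneSpectrum (𝓞 K)) (i j : Fin 2) :
    ((1 : GL (Fin 2) (v.adicCompletion K)) : Matrix (Fin 2) (Fin 2) (v.adicCompletion K)) i j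
      ∈ v.adicCompletionIntegers K := by
  rw [Units.val_one]
  by_cases hij : i = j
  · subst hij
    rw [Matrix.one_apply_eq]
    exact one_mem _
  · rw [Matrix.one_apply_ne hij]
    exact zero_mem _

theorem one_inv_integral429 (v : HeightOneSpectrum (𝓞 K)) (i j : Fin 2) :
    (((1 : GL (Fin 2) (v.adicCompletion K))⁻¹ : GL (Fin 2) (v.adicCompletion K)) :
      Matrix (Fin 2) (Fin 2) (v.adicCompletion K)) i j ∈ v.adicCompletionIntegers K := by
  rw [inv_one]
  exact one_integral429 v i j

/-- The element with prescribed components at the infinite places, trivial at the finite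
places. -/
def infMkFun429 (m : ∀ w : InfinitePlace K, GL (Fin 2) w.Completion) : G K :=
  glMk793 m (fun _ => 1) (fun v i j => one_integral429 v i j)
    (fun v i j => one_inv_integral429 v i j)

theorem infCompHom_infMkFun429 (m : ∀ w : InfinitePlace K, GL (Fin 2) w.Completion)
    (w : InfinitePlace K) : infCompHom129 w (infMkFun429 m) = m w := by
  rw [← glInf_eq429]
  exact glInf793_glMk _ _ _ _ w

theorem finCompHom_infMkFun429 (m : ∀ w : InfinitePlace K, GL (Fin 2) w.Completion)
    (v : HeightOneSpectrum (𝓞 K)) : finCompHom129 v (infMkFun429 m) = 1 := by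
  rw [← glFin_eq429]
  exact glFin793_glMk _ _ _ _ v

/-- The embedding of `∏_w GL₂(K_w)` in `GL₂(𝔸_K)`. -/
def infMk429 (K : Type) [Field K] [NumberField K] :
    (∀ w : InfinitePlace K, GL (Fin 2) w.Completion) →* G K where
  toFun := infMkFun429
  map_one' := by
    apply G_ext129
    · intro w
      rw [infCompHom_infMkFun429, map_one]
      rfl
    · intro v
      rw [finCompHom_infMkFun429, map_one]
  map_mul' m m' := by
    apply G_ext129
    · intro w
      rw [map_mul, infCompHom_infMkFun429, infCompHom_infMkFun429, infCompHom_infMkFun429]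
      rfl
    · intro v
      rw [map_mul, finCompHom_infMkFun429, finCompHom_infMkFun429, finCompHom_infMkFun429,
        mul_one]

theorem infCompHom_infMk429 (m : ∀ w : InfinitePlace K, GL (Fin 2) w.Completion)
    (w : InfinitePlace K) : infCompHom129 w (infMk429 K m) = m w :=
  infCompHom_infMkFun429 m w

theorem finCompHom_infMk429 (m : ∀ w : InfinitePlace K, GL (Fin 2) w.Completion)
    (v : HeightOneSpectrum (𝓞 K)) : finCompHom129 v (infMk429 K m) = 1 :=
  finCompHom_infMkFun429 m v

open scoped Classical in
/-- **The local embedding** `GL₂(K_w) →* GL₂(𝔸_K)` at an infinite place. -/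
def locInf429 (w : InfinitePlace K) : GL (Fin 2) w.Completion →* G K :=
  (infMk429 K).comp (MonoidHom.mulSingle (fun w : InfinitePlace K => GL (Fin 2) w.Completion) w)

open scoped Classical in
theorem infCompHom_locInf429 (w : InfinitePlace K) (x : GL (Fin 2) w.Completion) :
    infCompHom129 w (locInf429 w x) = x := by
  show infCompHom129 w (infMk429 K (Pi.mulSingle w x)) = x
  rw [infCompHom_infMk429, Pi.mulSingle_eq_same]

open scoped Classical in
theorem infCompHom_locInf429_of_ne (w : InfinitePlace K) (x : GL (Fin 2) w.Completion)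
    {w' : InfinitePlace K} (h : w' ≠ w) : infCompHom129 w' (locInf429 w x) = 1 := by
  show infCompHom129 w' (infMk429 K (Pi.mulSingle w x)) = 1
  rw [infCompHom_infMk429, Pi.mulSingle_eq_of_ne h]

theorem finCompHom_locInf429 (w : InfinitePlace K) (x : GL (Fin 2) w.Completion)
    (v : HeightOneSpectrum (𝓞 K)) : finCompHom129 v (locInf429 w x) = 1 :=
  finCompHom_infMk429 _ v

theorem isLocalAtInf_iff429 (w : InfinitePlace K) (g : G K) :
    IsLocalAtInf w g ↔ (∀ w' : InfinitePlace K, w' ≠ w → infCompHom129 w' g = 1) ∧
      ∀ v : HeightOneSpectrum (𝓞 K), finCompHom129 v g = 1 := by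
  unfold IsLocalAtInf
  simp only [trivAtInf_iff129, trivAtFin_iff129]

theorem isLocalAtInf_locInf429 (w : InfinitePlace K) (x : GL (Fin 2) w.Completion) :
    IsLocalAtInf w (locInf429 w x) := by
  rw [isLocalAtInf_iff429]
  exact ⟨fun w' h => infCompHom_locInf429_of_ne w x h, fun v => finCompHom_locInf429 w x v⟩

/-- A local element at `w` is the local embedding of its component at `w`. -/
theorem eq_locInf429_of_isLocalAtInf {w : InfinitePlace K} {g : G K}
    (hg : IsLocalAtInf w g) : g = locInf429 w (infCompHom129 w g) := by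
  rw [isLocalAtInf_iff429] at hg
  apply G_ext129
  · intro w'
    by_cases h : w' = w
    · subst h
      rw [infCompHom_locInf429]
    · rw [hg.1 w' h, infCompHom_locInf429_of_ne w _ h]
  · intro v
    rw [hg.2 v, finCompHom_locInf429]

/-- `A0.infComp` in terms of the component. -/
theorem infComp_eq429 (w : InfinitePlace K) (g : G K) :
    infComp w g = ((infCompHom129 w g : GL (Fin 2) w.Completion) :
      Matrix (Fin 2) (Fin 2) w.Completion).map (InfinitePlace.Completion.extensionEmbedding w) :=
  rfl

theorem infComp_mul429 (w : InfinitePlace K) (g h : G K) :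
    infComp w (g * h) = infComp w g * infComp w h := by
  rw [infComp_eq429, infComp_eq429, infComp_eq429, map_mul, Units.val_mul, Matrix.map_mul]

theorem infComp_one429 (w : InfinitePlace K) : infComp w (1 : G K) = 1 := by
  rw [infComp_eq429, map_one, Units.val_one, Matrix.map_one _ (map_zero _) (map_one _)]

theorem infComp_locInf429 (w : InfinitePlace K) (x : GL (Fin 2) w.Completion) :
    infComp w (locInf429 w x) = (x : Matrix (Fin 2) (Fin 2) w.Completion).map
      (InfinitePlace.Completion.extensionEmbedding w) := by
  rw [infComp_eq429, infCompHom_locInf429]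

/-- Two elements of `GL₂(K_w)` with the same image under the embedding in `M₂(ℂ)` are equal. -/
theorem gl_ext_of_map429 {w : InfinitePlace K} {x y : GL (Fin 2) w.Completion}
    (h : (x : Matrix (Fin 2) (Fin 2) w.Completion).map
        (InfinitePlace.Completion.extensionEmbedding w)
      = (y : Matrix (Fin 2) (Fin 2) w.Completion).map
        (InfinitePlace.Completion.extensionEmbedding w)) : x = y := by
  apply Units.ext
  refine Matrix.ext fun i j => ?_
  have := congrFun (congrFun h i) j
  exact (InfinitePlace.Completion.extensionEmbedding w).injective this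

/-- Two local elements at `w` with the same matrix in `M₂(ℂ)` are equal. -/
theorem eq_of_isLocalAtInf429 {w : InfinitePlace K} {g h : G K} (hg : IsLocalAtInf w g)
    (hh : IsLocalAtInf w h) (e : infComp w g = infComp w h) : g = h := by
  rw [eq_locInf429_of_isLocalAtInf hg, eq_locInf429_of_isLocalAtInf hh]
  congr 1
  exact gl_ext_of_map429 e

theorem isLocalAtInf_mul429 {w : InfinitePlace K} {g h : G K}
    (hg : IsLocalAtInf w g) (hh : IsLocalAtInf w h) : IsLocalAtInf w (g * h) := by
  rw [isLocalAtInf_iff429] at *
  exact ⟨fun w' hw => by rw [map_mul, hg.1 w' hw, hh.1 w' hw, mul_one],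
    fun v => by rw [map_mul, hg.2 v, hh.2 v, mul_one]⟩

theorem isLocalAtInf_inv429 {w : InfinitePlace K} {g : G K}
    (hg : IsLocalAtInf w g) : IsLocalAtInf w g⁻¹ := by
  rw [isLocalAtInf_iff429] at *
  exact ⟨fun w' hw => by rw [map_inv, hg.1 w' hw, inv_one],
    fun v => by rw [map_inv, hg.2 v, inv_one]⟩

/-! ## Commutation -/

/-- Elements with disjoint supports commute. -/
theorem commute_of_disjoint429 {g h : G K}
    (hI : ∀ w : InfinitePlace K, infCompHom129 w g = 1 ∨ infCompHom129 w h = 1)
    (hF : ∀ v : HeightOneSpectrum (𝓞 K), finCompHom129 v g = 1 ∨ finCompHom129 v h = 1) :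
    g * h = h * g := by
  apply G_ext129
  · intro w
    rw [map_mul, map_mul]
    rcases hI w with e | e <;> rw [e] <;> simp
  · intro v
    rw [map_mul, map_mul]
    rcases hF v with e | e <;> rw [e] <;> simp

theorem commute_fin_inf429 {v : HeightOneSpectrum (𝓞 K)} {w : InfinitePlace K} {h k : G K}
    (hh : IsLocalAtFin v h) (hk : IsLocalAtInf w k) : h * k = k * h := by
  rw [isLocalAtFin_iff129] at hh
  rw [isLocalAtInf_iff429] at hk
  exact commute_of_disjoint429 (fun w' => Or.inl (hh.1 w')) (fun v' => Or.inr (hk.2 v'))

theorem commute_fin_fin429 {v v' : HeightOneSpectrum (𝓞 K)} (hvv : v ≠ v') {h k : G K}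
    (hh : IsLocalAtFin v h) (hk : IsLocalAtFin v' k) : h * k = k * h := by
  rw [isLocalAtFin_iff129] at hh hk
  refine commute_of_disjoint429 (fun w' => Or.inl (hh.1 w')) (fun u => ?_)
  by_cases hu : u = v
  · subst hu
    exact Or.inr (hk.2 u hvv)
  · exact Or.inl (hh.2 u hu)

theorem commute_inf_inf429 {w w' : InfinitePlace K} (hww : w ≠ w') {h k : G K}
    (hh : IsLocalAtInf w h) (hk : IsLocalAtInf w' k) : h * k = k * h := by
  rw [isLocalAtInf_iff429] at hh hk
  refine commute_of_disjoint429 (fun u => ?_) (fun v => Or.inl (hh.2 v))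
  by_cases hu : u = w
  · subst hu
    exact Or.inr (hk.1 u hww)
  · exact Or.inl (hh.1 u hu)

/-- An element of the level group commutes with the elements supported at an infinite place. -/
theorem commute_level_inf429 {𝔫 : Ideal (𝓞 K)} {w : InfinitePlace K} {u k : G K}
    (hu : InLevelGroup 𝔫 u) (hk : IsLocalAtInf w k) : u * k = k * u := by
  rw [isLocalAtInf_iff429] at hk
  refine commute_of_disjoint429 (fun w' => Or.inl ?_) (fun v => Or.inr (hk.2 v))
  exact (trivAtInf_iff129 w' u).1 (hu.1 w')

/-! ## Central elements -/

theorem central_of_scalar429 {R : Type*} [CommRing R] {z : GL (Fin 2) R} {c : R}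
    (hz : (z : Matrix (Fin 2) (Fin 2) R) = Matrix.diagonal (fun _ => c)) (g : GL (Fin 2) R) :
    g * z = z * g := by
  apply Units.ext
  rw [Units.val_mul, Units.val_mul, hz]
  have : (Matrix.diagonal (fun _ => c) : Matrix (Fin 2) (Fin 2) R) = Matrix.scalar (Fin 2) c :=
    (Matrix.scalar_apply c).symm
  rw [this]
  exact ((Matrix.scalar_commute c (fun r => Commute.all _ _)
    (g : Matrix (Fin 2) (Fin 2) R)).eq).symm

/-- An element all of whose components are scalar matrices is central. -/
theorem central_of_scalar_comp429 {z : G K}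
    (hI : ∀ w : InfinitePlace K, ∃ c : w.Completion,
      ((infCompHom129 w z : GL (Fin 2) w.Completion) : Matrix (Fin 2) (Fin 2) w.Completion)
        = Matrix.diagonal (fun _ => c))
    (hF : ∀ v : HeightOneSpectrum (𝓞 K), ∃ c : v.adicCompletion K,
      ((finCompHom129 v z : GL (Fin 2) (v.adicCompletion K)) :
        Matrix (Fin 2) (Fin 2) (v.adicCompletion K)) = Matrix.diagonal (fun _ => c))
    (g : G K) : g * z = z * g := by
  apply G_ext129
  · intro w
    obtain ⟨c, hc⟩ := hI w
    rw [map_mul, map_mul]
    exact central_of_scalar429 hc _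
  · intro v
    obtain ⟨c, hc⟩ := hF v
    rw [map_mul, map_mul]
    exact central_of_scalar429 hc _

theorem one_eq_diagonal429 {R : Type*} [CommRing R] :
    ((1 : GL (Fin 2) R) : Matrix (Fin 2) (Fin 2) R) = Matrix.diagonal (fun _ => (1 : R)) := by
  rw [Units.val_one, Matrix.diagonal_one]

/-- A matrix over `K_w` whose image in `M₂(ℂ)` is a scalar matrix of a real number is scalar. -/
theorem scalar_of_map_scalar429 {w : InfinitePlace K} (M : Matrix (Fin 2) (Fin 2) w.Completion)
    (c : ℂ) (h : M.map (InfinitePlace.Completion.extensionEmbedding w)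
      = Matrix.diagonal (fun _ => c)) : M = Matrix.diagonal (fun _ => M 0 0) := by
  have hinj := (InfinitePlace.Completion.extensionEmbedding w).injective
  have e : ∀ i j, InfinitePlace.Completion.extensionEmbedding w (M i j)
      = (Matrix.diagonal (fun _ => c) : Matrix (Fin 2) (Fin 2) ℂ) i j :=
    fun i j => congrFun (congrFun h i) j
  refine Matrix.ext fun i j => ?_
  by_cases hij : i = j
  · subst hij
    rw [Matrix.diagonal_apply_eq]
    apply hinj
    rw [e, e, Matrix.diagonal_apply_eq, Matrix.diagonal_apply_eq]
  · rw [Matrix.diagonal_apply_ne _ hij]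
    apply hinj
    rw [e, Matrix.diagonal_apply_ne _ hij, map_zero]

end Fermat.Agent.LT.T2.H429

end
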