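import Mathlib
import Fermat.Agent.LT.H556.A0
import Fermat.Agent.LT.T1.Spec
import Fermat.Agent.LT.T2.Spec
import Fermat.Agent.LT.T1.H919.SiegelTools
import Fermat.Agent.LT.T1.H558.FundDom
import Fermat.Agent.LT.T2.H429.OpsSpec

/-!
# Row LT, tower T2, sub-leaf T2.07.00 (helper429): THE KEY LEMMA

OFF-MAIN.  `transl429`: for ANY function `Φ` on `GL₂(𝔸_K)` which is left invariant under `GL₂(K)`
and right invariant under `Z⁺`, and for any frame `F`,
`∫_D Φ(g h) dμ(g) = ∫_D Φ(g) dμ(g)` for every `h ∈ GL₂(𝔸_K)`.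

Hypotheses used: `T1.AdNormC K` and `T1.UnimodC K` only.  Assets (byte-identical copies):
helper919 `LT/T1/H919/SiegelTools.lean` (`rayAdl919`, `scalarG919`), helper558
`LT/T1/H558/FundDom.lean` (`adNorm_det_ratG_mul558`, `continuous_adNorm_det558`).

`subTransl429 : SubTransl429 K` closes the registry row T2.07.00.
-/

set_option autoImplicit false
set_option linter.style.haveILetI false

open IsDedekindDomain NumberField MeasureTheory
open Fermat.Agent.LT.H556.A0
open Fermat.Agent.LT.T2

noncomputable section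

namespace Fermat.Agent.LT.T2.H429

variable {K : Type} [Field K] [NumberField K]

attribute [local instance] Fermat.Agent.LT.T2.borelG

/-! ## 1. Countability of `GL₂(K)` and the action on `GL₂(𝔸_K)` -/

theorem countable_field429 (K : Type) [Field K] [NumberField K] : Countable K := by
  have e : K ≃ₗ[ℚ] (Fin (Module.finrank ℚ K) → ℚ) := (Module.finBasis ℚ K).equivFun
  exact e.toEquiv.injective.countable

theorem countable_gl429 (K : Type) [Field K] [NumberField K] : Countable (GL (Fin 2) K) := by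
  haveI := countable_field429 K
  have hinj : Function.Injective
      (fun γ : GL (Fin 2) K => (γ : Matrix (Fin 2) (Fin 2) K)) := fun a b h => Units.ext h
  haveI : Countable (Matrix (Fin 2) (Fin 2) K) := by
    unfold Matrix
    infer_instance
  exact hinj.countable

/-- The action of `GL₂(K)` on `GL₂(𝔸_K)` by left translations. -/
@[reducible] def gamAct429 (K : Type) [Field K] [NumberField K] :
    MulAction (GL (Fin 2) K) (G K) :=
  MulAction.compHom (G K) (T1.ratG K)

theorem borelSpace_G429 (K : Type) [Field K] [NumberField K] : BorelSpace (G K) := ⟨rfl⟩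

/-- The determinant module `g ↦ ‖det g‖_𝔸`. -/
def dn429 (g : G K) : ℝ := T1.adNorm K (Matrix.det (g : Matrix (Fin 2) (Fin 2) (Adl K)))

theorem mem_slab_iff429 (g : G K) : g ∈ T1.slab K ↔ 1 ≤ dn429 g ∧ dn429 g < 2 := Iff.rfl

theorem dn_mul429 (hN : T1.AdNormC K) (g h : G K) : dn429 (g * h) = dn429 g * dn429 h := by
  obtain ⟨-, hmul, -, -⟩ := hN
  have h1 : Matrix.det ((g * h : G K) : Matrix (Fin 2) (Fin 2) (Adl K))
      = ((Matrix.GeneralLinearGroup.det g * Matrix.GeneralLinearGroup.det h :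
          (Adl K)ˣ) : Adl K) := by
    rw [Units.val_mul, Matrix.det_mul, Units.val_mul]
    rfl
  unfold dn429
  rw [h1, hmul]
  rfl

theorem dn_pos429 (hN : T1.AdNormC K) (g : G K) : 0 < dn429 g :=
  hN.1 (Matrix.GeneralLinearGroup.det g)

theorem dn_one429 (hN : T1.AdNormC K) : dn429 (1 : G K) = 1 := by
  have h := dn_mul429 hN (1 : G K) 1
  rw [mul_one] at h
  have hp := dn_pos429 hN (1 : G K)
  nlinarith

theorem dn_inv429 (hN : T1.AdNormC K) (g : G K) : dn429 g⁻¹ = (dn429 g)⁻¹ := by
  have h := dn_mul429 hN g g⁻¹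
  rw [mul_inv_cancel, dn_one429 hN] at h
  have hp := dn_pos429 hN g
  field_simp
  linarith

theorem dn_ratG429 (hN : T1.AdNormC K) (γ : GL (Fin 2) K) (g : G K) :
    dn429 (T1.ratG K γ * g) = dn429 g :=
  T1.H558.adNorm_det_ratG_mul558 K hN γ g

theorem measurableSet_slab429 (hN : T1.AdNormC K) : MeasurableSet (T1.slab K) := by
  haveI := borelSpace_G429 K
  have hc : Continuous (dn429 (K := K)) := T1.H558.continuous_adNorm_det558 K hN
  have : T1.slab K = dn429 ⁻¹' (Set.Ico 1 2) := by
    ext g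
    rfl
  rw [this]
  exact measurableSet_Ico.preimage hc.measurable

/-! ## 2. Strict fundamental domains in the slab are fundamental domains -/

section Fund

variable (hN : T1.AdNormC K) (μ : Measure (G K))

theorem measurableConstSMul429 :
    letI := gamAct429 K
    MeasurableConstSMul (GL (Fin 2) K) (G K) := by
  letI := gamAct429 K
  haveI := borelSpace_G429 K
  exact ⟨fun c => (continuous_const_mul (T1.ratG K c) : Continuous fun g : G K =>
    T1.ratG K c * g).measurable⟩

include hN in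
theorem smulInvariant_restrict429 [μ.IsMulLeftInvariant] :
    letI := gamAct429 K
    SMulInvariantMeasure (GL (Fin 2) K) (G K) (μ.restrict (T1.slab K)) := by
  letI := gamAct429 K
  haveI := borelSpace_G429 K
  refine ⟨fun c s hs => ?_⟩
  have hmeas : Measurable (fun g : G K => c • g) :=
    (continuous_const_mul (T1.ratG K c) : Continuous fun g : G K => T1.ratG K c * g).measurable
  rw [Measure.restrict_apply (hmeas hs), Measure.restrict_apply hs]
  have hset : (fun g : G K => c • g) ⁻¹' s ∩ T1.slab K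
      = (fun g : G K => T1.ratG K c * g) ⁻¹' (s ∩ T1.slab K) := by
    ext g
    simp only [Set.mem_inter_iff, Set.mem_preimage, mem_slab_iff429, dn_ratG429 hN]
    rfl
  rw [hset, measure_preimage_mul]

include hN in
theorem isFundamentalDomain_of_strict429 {D : Set (G K)} (hm : MeasurableSet D)
    (hsub : D ⊆ T1.slab K)
    (hstrict : ∀ g ∈ T1.slab K, ∃! γ : GL (Fin 2) K, T1.ratG K γ * g ∈ D) :
    letI := gamAct429 K
    IsFundamentalDomain (GL (Fin 2) K) D (μ.restrict (T1.slab K)) := by
  letI := gamAct429 K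
  refine ⟨hm.nullMeasurableSet, ?_, ?_⟩
  · rw [ae_restrict_iff' (measurableSet_slab429 hN)]
    exact Filter.Eventually.of_forall fun g hg => (hstrict g hg).exists
  · intro γ γ' hne
    apply Disjoint.aedisjoint
    rw [Set.disjoint_left]
    rintro x ⟨d, hd, rfl⟩ ⟨d', hd', hx⟩
    apply hne
    have hx' : T1.ratG K γ' * d' = T1.ratG K γ * d := hx
    obtain ⟨δ, -, huniq⟩ := hstrict d (hsub hd)
    have h1 : (1 : GL (Fin 2) K) = δ := huniq 1 (by simpa using hd)
    have h2 : γ'⁻¹ * γ = δ := by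
      apply huniq
      show T1.ratG K (γ'⁻¹ * γ) * d ∈ D
      rw [map_mul, mul_assoc, ← hx', ← mul_assoc, ← map_mul, inv_mul_cancel, map_one, one_mul]
      exact hd'
    have h3 : γ'⁻¹ * γ = 1 := h2.trans h1.symm
    have := congrArg (fun t => γ' * t) h3
    simpa using this

end Fund

/-! ## 3. Translation by an element of module one -/

section Unit

variable (hN : T1.AdNormC K) (μ : Measure (G K))

include hN in
theorem setIntegral_transl_of_dn_one429 [μ.IsMulLeftInvariant] [μ.IsMulRightInvariant]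
    {D : Set (G K)} (hm : MeasurableSet D) (hsub : D ⊆ T1.slab K)
    (hstrict : ∀ g ∈ T1.slab K, ∃! γ : GL (Fin 2) K, T1.ratG K γ * g ∈ D)
    (Φ : G K → ℂ) (hΓ : ∀ (γ : GL (Fin 2) K) (g : G K), Φ (T1.ratG K γ * g) = Φ g)
    (h : G K) (hh : dn429 h = 1) :
    ∫ g in D, Φ (g * h) ∂μ = ∫ g in D, Φ g ∂μ := by
  letI := gamAct429 K
  haveI := borelSpace_G429 K
  haveI := countable_gl429 K
  haveI := measurableConstSMul429 (K := K)
  haveI := smulInvariant_restrict429 hN μ
  -- the translated domain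
  set D' : Set (G K) := (fun g : G K => g * h⁻¹) ⁻¹' D with hD'
  have hm' : MeasurableSet D' :=
    (continuous_mul_const h⁻¹ : Continuous fun g : G K => g * h⁻¹).measurable hm
  have hpre : (fun g : G K => g * h) ⁻¹' D' = D := by
    ext g
    simp [hD', mul_assoc]
  have hinv : dn429 h⁻¹ = 1 := by rw [dn_inv429 hN, hh, inv_one]
  have hsub' : D' ⊆ T1.slab K := by
    intro g hg
    have hg' : g * h⁻¹ ∈ T1.slab K := hsub hg
    rw [mem_slab_iff429, dn_mul429 hN, hinv, mul_one] at hg'
    exact (mem_slab_iff429 g).2 hg'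
  have hstrict' : ∀ g ∈ T1.slab K, ∃! γ : GL (Fin 2) K, T1.ratG K γ * g ∈ D' := by
    intro g hg
    have hg' : g * h⁻¹ ∈ T1.slab K := by
      rw [mem_slab_iff429, dn_mul429 hN, hinv, mul_one]
      exact (mem_slab_iff429 g).1 hg
    obtain ⟨γ, hγ, huniq⟩ := hstrict (g * h⁻¹) hg'
    refine ⟨γ, ?_, fun δ hδ => huniq δ ?_⟩
    · show T1.ratG K γ * g * h⁻¹ ∈ D
      rw [mul_assoc]
      exact hγ
    · have : T1.ratG K δ * g * h⁻¹ ∈ D := hδ
      rw [mul_assoc] at this
      exact this
  -- change of variables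
  have h1 : ∫ g in D, Φ (g * h) ∂μ = ∫ g in D', Φ g ∂μ := by
    have := (measurePreserving_mul_right μ h).setIntegral_preimage_emb
      (measurableEmbedding_mulRight h) Φ D'
    rw [hpre] at this
    exact this
  -- the two fundamental domains
  have hF : IsFundamentalDomain (GL (Fin 2) K) D (μ.restrict (T1.slab K)) :=
    isFundamentalDomain_of_strict429 hN μ hm hsub hstrict
  have hF' : IsFundamentalDomain (GL (Fin 2) K) D' (μ.restrict (T1.slab K)) :=
    isFundamentalDomain_of_strict429 hN μ hm' hsub' hstrict'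
  have h2 := hF'.setIntegral_eq hF (f := Φ) (fun γ g => hΓ γ g)
  have hr : ∀ {E : Set (G K)}, MeasurableSet E → E ⊆ T1.slab K →
      (μ.restrict (T1.slab K)).restrict E = μ.restrict E := by
    intro E hE hEs
    rw [Measure.restrict_restrict hE, Set.inter_eq_left.2 hEs]
  rw [hr hm' hsub', hr hm hsub] at h2
  rw [h1, h2]

end Unit

/-! ## 4. The diagonal positive scalars -/

/-- The scalar matrix of the real number `r` at every infinite place, `1` at the finite places. -/
def zpos429 (K : Type) [Field K] [NumberField K] (r : ℝˣ) : G K :=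
  T1.H919.scalarG919 (Units.map (T1.H919.rayAdl919 K) r)

theorem zpos429_val (r : ℝˣ) :
    ((zpos429 K r : G K) : Matrix (Fin 2) (Fin 2) (Adl K))
      = Matrix.diagonal (fun _ => T1.H919.rayAdl919 K (r : ℝ)) :=
  T1.H919.scalarG919_val _

theorem isDiagPosScalar_zpos429 (r : ℝˣ) (hr : 0 < (r : ℝ)) : IsDiagPosScalar (zpos429 K r) := by
  refine ⟨fun v => ?_, (r : ℝ), hr, fun w => ?_⟩
  · show finComp v (zpos429 K r) = 1
    refine Matrix.ext fun i j => ?_
    show (((zpos429 K r : G K) : Matrix (Fin 2) (Fin 2) (Adl K)) i j).2 v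
      = (1 : Matrix (Fin 2) (Fin 2) (v.adicCompletion K)) i j
    rw [zpos429_val]
    by_cases hij : i = j
    · subst hij
      rw [Matrix.diagonal_apply_eq, Matrix.one_apply_eq]
      rfl
    · rw [Matrix.diagonal_apply_ne _ hij, Matrix.one_apply_ne hij]
      rfl
  · refine Matrix.ext fun i j => ?_
    show InfinitePlace.Completion.extensionEmbedding w
      ((((zpos429 K r : G K) : Matrix (Fin 2) (Fin 2) (Adl K)) i j).1 w)
      = (Matrix.diagonal (fun _ => (((r : ℝ) : ℝ) : ℂ)) : Matrix (Fin 2) (Fin 2) ℂ) i j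
    rw [zpos429_val]
    by_cases hij : i = j
    · subst hij
      rw [Matrix.diagonal_apply_eq, Matrix.diagonal_apply_eq, T1.H919.rayAdl919_inf,
        T1.H919.extensionEmbedding_realTo919]
    · rw [Matrix.diagonal_apply_ne _ hij, Matrix.diagonal_apply_ne _ hij]
      exact map_zero _

theorem dn_zpos429 (r : ℝˣ) : dn429 (zpos429 K r) = |(r : ℝ) * r| ^ Module.finrank ℚ K := by
  unfold dn429
  rw [zpos429_val, Matrix.det_diagonal, Fin.prod_univ_two, ← map_mul,
    T1.H919.adNorm_rayAdl919]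

theorem exists_diagPosScalar429 (K : Type) [Field K] [NumberField K] (a : ℝ) (ha : 0 < a) :
    ∃ z : G K, IsDiagPosScalar z ∧ dn429 z = a := by
  have hn : Module.finrank ℚ K ≠ 0 := (Module.finrank_pos (R := ℚ) (M := K)).ne'
  set s : ℝ := a ^ ((Module.finrank ℚ K : ℝ)⁻¹) with hs
  have hs0 : 0 < s := Real.rpow_pos_of_pos ha _
  have hsn : s ^ Module.finrank ℚ K = a := Real.rpow_inv_natCast_pow ha.le hn
  have hr0 : 0 < Real.sqrt s := Real.sqrt_pos.2 hs0
  refine ⟨zpos429 K (Units.mk0 (Real.sqrt s) hr0.ne'), isDiagPosScalar_zpos429 _ hr0, ?_⟩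
  rw [dn_zpos429]
  show |Real.sqrt s * Real.sqrt s| ^ Module.finrank ℚ K = a
  rw [Real.mul_self_sqrt hs0.le, abs_of_pos hs0, hsn]

/-! ## 5. THE KEY LEMMA -/

/-- **KEY LEMMA**: the integral over the domain of a frame of a function which is left invariant
under `GL₂(K)` and right invariant under `Z⁺` is invariant under all right translations. -/
theorem transl429 (hN : T1.AdNormC K) (hU : T1.UnimodC K) (F : Frame K) (Φ : G K → ℂ)
    (hΓ : ∀ (γ : GL (Fin 2) K) (g : G K), Φ (T1.ratG K γ * g) = Φ g)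
    (hZ : ∀ z : G K, IsDiagPosScalar z → ∀ g : G K, Φ (g * z) = Φ g) (h : G K) :
    ∫ g in F.D, Φ (g * h) ∂F.μ = ∫ g in F.D, Φ g ∂F.μ := by
  haveI := F.haar
  haveI : F.μ.IsMulRightInvariant := hU F.μ F.haar
  have ha : 0 < dn429 h := dn_pos429 hN h
  obtain ⟨z, hz, hdz⟩ := exists_diagPosScalar429 K (dn429 h)⁻¹ (inv_pos.2 ha)
  have h1 : dn429 (h * z) = 1 := by
    rw [dn_mul429 hN, hdz, mul_inv_cancel₀ ha.ne']
  have h2 : ∀ g : G K, Φ (g * h) = Φ (g * (h * z)) := fun g => by
    rw [← mul_assoc, hZ z hz]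
  simp only [h2]
  exact setIntegral_transl_of_dn_one429 hN F.μ F.meas F.sub F.strict Φ hΓ (h * z) h1

/-- **T2.07.00 CLOSED.** -/
theorem subTransl429 (K : Type) [Field K] [NumberField K] : SubTransl429 K :=
  fun hT1 F Φ _ _ hΓ hZ h => transl429 hT1.adNorm hT1.unimod F Φ hΓ hZ h

end Fermat.Agent.LT.T2.H429

end
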