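import Mathlib
import Fermat.Agent.LT.H556.A0
import Fermat.Agent.LT.T1.Spec
import Fermat.Agent.LT.T2.Spec
import Fermat.Agent.LT.T2.H429.OpsSpec
import Fermat.Agent.LT.T2.H429.Transl
import Fermat.Agent.LT.T2.H429.Loc

/-!
# Row LT, tower T2, leaf T2.07 (helper429): invariance class and the pairing under translations

OFF-MAIN.
* `scalarUnif_central429` (= registry row T2.07.01), `diagPos_central429`;
* `cusp_diag_inv429`: a cusp function is right invariant under `Z⁺`;
* `IsAut429 φ`: left invariant under `GL₂(K)`, right invariant under `Z⁺`;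
* `pair_shift_shift429`, `pair_shift_left429`, `nsq_shift429`: consequences of the KEY LEMMA
  (`transl429`): right translations are unitary for the pairing of a frame.
-/

set_option autoImplicit false
set_option linter.style.haveILetI false
set_option linter.unusedSectionVars false

open IsDedekindDomain NumberField MeasureTheory
open Fermat.Agent.LT.H556.A0
open Fermat.Agent.LT.H129
open Fermat.Agent.LT.T2

noncomputable section

namespace Fermat.Agent.LT.T2.H429

variable {K : Type} [Field K] [NumberField K]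

attribute [local instance] Fermat.Agent.LT.T2.borelG

/-! ## 1. Central elements -/

/-- **T2.07.01 CLOSED**: a scalar uniformiser is central. -/
theorem scalarUnif_central429 {v : HeightOneSpectrum (𝓞 K)} {z : G K}
    (hz : IsScalarUniformizerAt v z) (g : G K) : g * z = z * g := by
  obtain ⟨hloc, c, -, hc⟩ := hz
  rw [isLocalAtFin_iff129] at hloc
  refine central_of_scalar_comp429 (fun w => ⟨1, ?_⟩) (fun v' => ?_) g
  · rw [hloc.1 w]
    exact one_eq_diagonal429
  · by_cases h : v' = v
    · subst h
      exact ⟨c, hc⟩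
    · refine ⟨1, ?_⟩
      rw [hloc.2 v' h]
      exact one_eq_diagonal429

theorem subCentral429 (K : Type) [Field K] [NumberField K] : SubCentral429 K :=
  fun _ _ hz g => scalarUnif_central429 hz g

/-- A diagonal positive scalar is central. -/
theorem diagPos_central429 {z : G K} (hz : IsDiagPosScalar z) (g : G K) : g * z = z * g := by
  obtain ⟨hfin, r, -, hr⟩ := hz
  refine central_of_scalar_comp429 (fun w => ⟨((infCompHom129 w z : GL (Fin 2) w.Completion) :
    Matrix (Fin 2) (Fin 2) w.Completion) 0 0, ?_⟩) (fun v => ⟨1, ?_⟩) g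
  · exact scalar_of_map_scalar429 _ (r : ℂ) (hr w)
  · rw [(trivAtFin_iff129 v z).1 (hfin v)]
    exact one_eq_diagonal429

/-! ## 2. Cusp functions are invariant under `Z⁺` -/

open scoped Classical in
/-- If `φ` is right invariant under the positive scalars at every infinite place, then it is
right invariant under the diagonal positive scalars. -/
theorem diag_inv_of_arch429 {φ : G K → ℂ}
    (h : ∀ (w : InfinitePlace K) (z : G K), IsArchPosScalar w z → ∀ g : G K, φ (g * z) = φ g)
    (z : G K) (hz : IsDiagPosScalar z) (g : G K) : φ (g * z) = φ g := by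
  obtain ⟨hfin, r, hr0, hr⟩ := hz
  -- the partial products
  let m : Finset (InfinitePlace K) → ∀ w : InfinitePlace K, GL (Fin 2) w.Completion :=
    fun S w => if w ∈ S then infCompHom129 w z else 1
  have key : ∀ S : Finset (InfinitePlace K), ∀ g : G K, φ (g * infMk429 K (m S)) = φ g := by
    intro S
    induction S using Finset.induction_on with
    | empty =>
      intro g
      have : m ∅ = 1 := by
        funext w
        simp [m]
      rw [this, map_one, mul_one]
    | insert w S hw ih =>
      intro g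
      have hm : m (insert w S) = m S * Pi.mulSingle w (infCompHom129 w z) := by
        funext w'
        by_cases e : w' = w
        · subst e
          simp [m, hw]
        · simp [m, e]
      have hl : IsArchPosScalar w (locInf429 w (infCompHom129 w z)) := by
        refine ⟨isLocalAtInf_locInf429 w _, r, hr0, ?_⟩
        rw [infComp_locInf429, ← infComp_eq429]
        exact hr w
      rw [hm, map_mul, ← mul_assoc]
      have : infMk429 K (Pi.mulSingle w (infCompHom129 w z))
          = locInf429 w (infCompHom129 w z) := rfl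
      rw [this, h w _ hl, ih]
  have hz' : z = infMk429 K (m Finset.univ) := by
    apply G_ext129
    · intro w
      rw [infCompHom_infMk429]
      simp [m]
    · intro v
      rw [finCompHom_infMk429]
      exact (trivAtFin_iff129 v z).1 (hfin v)
  rw [hz']
  exact key Finset.univ g

theorem cusp_diag_inv429 {𝔫 : Ideal (𝓞 K)} {φ : G K → ℂ} (hφ : IsCuspFn 𝔫 φ)
    (z : G K) (hz : IsDiagPosScalar z) (g : G K) : φ (g * z) = φ g :=
  diag_inv_of_arch429 hφ.arch_scalar z hz g

/-! ## 3. The invariance class -/

/-- Left invariant under `GL₂(K)` and right invariant under `Z⁺`. -/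
structure IsAut429 (φ : G K → ℂ) : Prop where
  left_inv : ∀ (γ : GL (Fin 2) K) (g : G K), φ (T1.ratG K γ * g) = φ g
  diag_inv : ∀ z : G K, IsDiagPosScalar z → ∀ g : G K, φ (g * z) = φ g

theorem cusp_isAut429 {𝔫 : Ideal (𝓞 K)} {φ : G K → ℂ} (hφ : IsCuspFn 𝔫 φ) : IsAut429 φ :=
  ⟨fun γ g => hφ.left_inv γ g, fun z hz g => cusp_diag_inv429 hφ z hz g⟩

theorem IsAut429.shift {φ : G K → ℂ} (hφ : IsAut429 φ) (h : G K) : IsAut429 (shift h φ) := by
  refine ⟨fun γ g => ?_, fun z hz g => ?_⟩
  · show φ (T1.ratG K γ * g * h) = φ (g * h)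
    rw [mul_assoc, hφ.left_inv]
  · show φ (g * z * h) = φ (g * h)
    rw [mul_assoc, ← diagPos_central429 hz h, ← mul_assoc, hφ.diag_inv z hz]

theorem IsAut429.mul_conj {φ ψ : G K → ℂ} (hφ : IsAut429 φ) (hψ : IsAut429 ψ) :
    IsAut429 (fun g => φ g * (starRingEnd ℂ) (ψ g)) := by
  refine ⟨fun γ g => ?_, fun z hz g => ?_⟩
  · show φ _ * (starRingEnd ℂ) (ψ _) = _
    rw [hφ.left_inv, hψ.left_inv]
  · show φ _ * (starRingEnd ℂ) (ψ _) = _
    rw [hφ.diag_inv z hz, hψ.diag_inv z hz]

theorem shift_shift429 (h k : G K) (φ : G K → ℂ) : shift h (shift k φ) = shift (h * k) φ := by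
  funext g
  show φ (g * h * k) = φ (g * (h * k))
  rw [mul_assoc]

theorem shift_one429 (φ : G K → ℂ) : shift (1 : G K) φ = φ := by
  funext g
  show φ (g * 1) = φ g
  rw [mul_one]

/-! ## 4. The pairing under translations -/

section Pair

variable (hN : T1.AdNormC K) (hU : T1.UnimodC K) (F : Frame K)

include hN hU in
/-- Right translations are unitary. -/
theorem pair_shift_shift429 {φ ψ : G K → ℂ} (hφ : IsAut429 φ) (hψ : IsAut429 ψ) (h : G K) :
    pair F (shift h φ) (shift h ψ) = pair F φ ψ := by
  have hΦ := hφ.mul_conj hψ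
  exact transl429 hN hU F (fun g => φ g * (starRingEnd ℂ) (ψ g)) hΦ.left_inv hΦ.diag_inv h

include hN hU in
/-- The adjoint of the right translation by `h` is the right translation by `h⁻¹`. -/
theorem pair_shift_left429 {φ ψ : G K → ℂ} (hφ : IsAut429 φ) (hψ : IsAut429 ψ) (h : G K) :
    pair F (shift h φ) ψ = pair F φ (shift h⁻¹ ψ) := by
  have := pair_shift_shift429 hN hU F hφ (hψ.shift h⁻¹) h
  rw [shift_shift429, mul_inv_cancel, shift_one429] at this
  exact this

include hN hU in
theorem nsq_shift429 {φ : G K → ℂ} (hφ : IsAut429 φ) (h : G K) :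
    nsq F (shift h φ) = nsq F φ := by
  unfold nsq
  rw [pair_shift_shift429 hN hU F hφ hφ h]

end Pair

/-! ## 5. Shifts by central elements preserve the cusp functions -/

theorem pres_shift_central429 (𝔫 : Ideal (𝓞 K)) {z : G K} (hz : ∀ g : G K, g * z = z * g) :
    Pres429 𝔫 (shift z) := by
  intro φ hφ
  have key : ∀ g u : G K, g * u * z = g * z * u := fun g u => by
    rw [mul_assoc, hz u, ← mul_assoc]
  refine ⟨?_, ?_, ?_, ?_, ?_, ?_, ?_⟩
  · exact hφ.cont.comp (continuous_mul_const z)
  · obtain ⟨C, hC⟩ := hφ.bdd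
    exact ⟨C, fun g => hC _⟩
  · intro γ g
    show φ (_ * g * z) = φ (g * z)
    rw [mul_assoc, hφ.left_inv]
  · intro u hu g
    show φ (g * u * z) = φ (g * z)
    rw [key, hφ.level_inv u hu]
  · intro w u hu g
    show φ (g * u * z) = φ (g * z)
    rw [key, hφ.arch_scalar w u hu]
  · intro w u hu g
    show φ (g * u * z) = φ (g * z)
    rw [key, hφ.arch_compact w u hu]
  · intro μ hμ D hD n hn g
    have := hφ.cuspidal μ hμ D hD n hn (g * z)
    simp only [shift]
    simpa only [mul_assoc] using this

/-! ## 6. The sub-leaves on the shifts (registry rows T2.07.05 -- T2.07.07) -/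

/-- **T2.07.05 CLOSED.** -/
theorem subShiftPres429 (K : Type) [Field K] [NumberField K] : SubShiftPres429 K :=
  fun 𝔫 _ _ _ _ hz =>
    ⟨pres_shift_central429 𝔫 (scalarUnif_central429 hz),
      pres_shift_central429 𝔫 (central_inv429 (scalarUnif_central429 hz))⟩

/-- **T2.07.06 CLOSED.** -/
theorem subShiftBdd429 (K : Type) [Field K] [NumberField K] : SubShiftBdd429 K :=
  fun _ c F _ _ z _ =>
    ⟨⟨1, fun φ hφ => by rw [nsq_shift429 c.t1.adNorm c.t1.unimod F (cusp_isAut429 hφ) z, one_mul]⟩,
      ⟨1, fun φ hφ => by rw [nsq_shift429 c.t1.adNorm c.t1.unimod F (cusp_isAut429 hφ) z⁻¹, one_mul]⟩⟩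

/-- **T2.07.07 CLOSED.** -/
theorem subShiftAdj429 (K : Type) [Field K] [NumberField K] : SubShiftAdj429 K :=
  fun _ c F _ _ z _ =>
    ⟨fun φ ψ hφ hψ => pair_shift_left429 c.t1.adNorm c.t1.unimod F (cusp_isAut429 hφ) (cusp_isAut429 hψ) z,
      fun φ ψ hφ hψ => by
        have := pair_shift_left429 c.t1.adNorm c.t1.unimod F (cusp_isAut429 hφ) (cusp_isAut429 hψ) z⁻¹
        rwa [inv_inv] at this⟩

end Fermat.Agent.LT.T2.H429

end
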