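import Mathlib
import Fermat.Agent.LT.H556.A0
import Fermat.Agent.LT.T1.Spec
import Fermat.Agent.LT.T2.Spec
import Fermat.Agent.LT.T2.H429.OpsSpec
import Fermat.Agent.LT.T2.H429.Aut

/-!
# Row LT, tower T2, leaf T2.07 (helper429): `T2.Leaf07` of Spec v3 from the sub-leaves

OFF-MAIN.  `T2/Spec.lean` v3 (sha256 b934629a): `Leaf07 K` concludes `OpsGood K 𝔫 ∧ OpsAdj K 𝔫`.

* `opsAdj_of_sub429`: `OpsAdj` from `SubHeckeAdj429`, `SubMeanAdj429` and the unitarity of the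
  right translations (`pair_shift_shift429`, from the KEY LEMMA `transl429`);
* `leaf07_of_sub429 : Sub429 K → T2.Leaf07 K`.
-/

set_option autoImplicit false

open IsDedekindDomain NumberField MeasureTheory
open Fermat.Agent.LT.H556.A0
open Fermat.Agent.LT.T2

noncomputable section

namespace Fermat.Agent.LT.T2.H429

variable {K : Type} [Field K] [NumberField K]

attribute [local instance] Fermat.Agent.LT.T2.borelG

/-- `OpsAdj` from the sub-leaves. -/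
theorem opsAdj_of_sub429 (hHA : SubHeckeAdj429 K) (hMA : SubMeanAdj429 K) {𝔫 : Ideal (𝓞 K)}
    (c : Ctx429 K 𝔫) : OpsAdj K 𝔫 := fun F =>
  ⟨fun _ _ z _ _ _ hφ hψ =>
      pair_shift_shift429 c.t1.adNorm c.t1.unimod F (cusp_isAut429 hφ) (cusp_isAut429 hψ) z,
    fun v hv H z hH hz φ ψ hφ hψ => hHA 𝔫 c F v hv H hH z hz φ ψ hφ hψ,
    fun w hw d hd Y hY φ ψ hφ hψ => (hMA 𝔫 c F).1 w hw d hd Y hY φ ψ hφ hψ,
    fun w hw t ht Y hY φ ψ hφ hψ => (hMA 𝔫 c F).2 w hw t ht Y hY φ ψ hφ hψ⟩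

/-- **THE LEAF `T2.07` (Spec v3) FROM ITS SUB-LEAVES.** -/
theorem leaf07_of_sub429 (S : Sub429 K) : Leaf07 K := fun hT1 𝔫 h𝔫 hP hC =>
  ⟨opsGood_of_sub429 S hT1 𝔫 h𝔫 hP hC,
    opsAdj_of_sub429 S.heckeAdj S.meanAdj ⟨hT1, h𝔫, hP, hC⟩⟩

end Fermat.Agent.LT.T2.H429

end
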