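import Mathlib
import Fermat.Agent.LT.H556.A0
import Fermat.Agent.LT.T1.Spec
import Fermat.Agent.LT.T2.Spec
import Fermat.Agent.LT.T2.H429.OpsSpec
import Fermat.Agent.LT.T2.H429.Transl
import Fermat.Agent.LT.T2.H429.Aut
import Fermat.Agent.LT.T2.H429.Leaf07
import Fermat.Agent.LT.T2.H655.HeckePres
import Fermat.Agent.LT.T2.H91.HeckeBdd
import Fermat.Agent.LT.T2.H848.ConvLin
import Fermat.Agent.LT.T2.H173.ConvBdd
import Fermat.Agent.LT.T2.H75.CommHeckeHecke
import Fermat.Agent.LT.T2.H621.CirclePresTop
import Fermat.Agent.LT.T2.H546.MeanLin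
import Fermat.Agent.LT.T2.H314.CommMeanHecke
import Fermat.Agent.LT.T2.H879.CommSphereCircle
import Fermat.Agent.LT.T2.H368.CircleComm
import Fermat.Agent.LT.T2.H472.LocContLeaf
import Fermat.Agent.LT.T2.H972.CommConvHecke
import Fermat.Agent.LT.T2.H322.MeanBddLeaf
import Fermat.Agent.LT.T2.H756.HeckeAdjClosed
import Fermat.Agent.LT.T2.H770.MeanAdj

/-!
# Row LT, tower T2, leaf T2.07 (helper429): INTEGRATION of the closed sub-leaves

OFF-MAIN.  Byte-identical copies of the volunteers' files, rebuilt here against `T2/Spec.lean` v3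
(sha256 b934629a), `T1/Spec.lean` v1 (sha256 e8ae48d6) and `OpsSpec.lean` v2.

| sub-leaf | closed by |
|---|---|
| T2.07.00 `SubTransl429` (KEY LEMMA) | helper429 `subTransl429` |
| T2.07.01 `SubCentral429` | helper429 `subCentral429` |
| T2.07.02 `SubHeckePres429` | helper655 `subHeckePres655` |
| T2.07.03 `SubHeckeBdd429` | helper91 `subHeckeBdd_of_transl91` |
| T2.07.04 `SubHeckeAdj429` | helper756 `subHeckeAdj756` |
| T2.07.05 -- T2.07.07 (shifts) | helper429 `subShiftPres429`, `subShiftBdd429`, `subShiftAdj429` |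
| T2.07.08 `SubConvLin429` | helper848 `subConvLin848` |
| T2.07.09 `SubConvBdd429` | helper173 `subConvBdd_of173` |
| T2.07.10 `SubCommHeckeHecke429` | helper75 `subCommHeckeHecke75` |
| T2.07.11 `SubCommConvHecke429` | helper972 `subCommConvHecke972` |
| T2.07.13 `SubCirclePres429` | helper621 `subCirclePres621` |
| T2.07.14 `SubMeanLin429` | helper546 `subMeanLin_of_locCont_h546` |
| T2.07.15 `SubMeanBdd429` | helper322 `subMeanBdd322` |
| T2.07.16 `SubMeanAdj429` | helper770 `subMeanAdj770` |
| T2.07.17 `SubCommMeanHecke429` | helper314 `subCommMeanHecke314` |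
| T2.07.19 `SubCommSphereCircle429` | helper879 `subCommSphereCircle_of_locCont879` |
| T2.07.20 `SubCommCircleCircle429` | helper368 `subCommCircleCircle368` |
| T2.07.30 `SubLocCont429` | helper472 `subLocCont472` |

`leaf07_of_open429 : Open429 K → T2.Leaf07 K` is the state of the leaf: `Open429 K` lists the
sub-leaves still to be integrated.
-/

set_option autoImplicit false

open IsDedekindDomain NumberField MeasureTheory
open Fermat.Agent.LT.H556.A0
open Fermat.Agent.LT.T2

noncomputable section

namespace Fermat.Agent.LT.T2.H429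

variable (K : Type) [Field K] [NumberField K]

/-- THE OPEN PART of the leaf T2.07. -/
structure Open429 : Prop where
  spherePres : SubSpherePres429 K
  commSphereSphere : SubCommSphereSphere429 K
  commConvMean : SubCommConvMean429 K

variable {K}

theorem sub_of_open429 (O : Open429 K) : Sub429 K where
  central := subCentral429 K
  heckePres := Fermat.Agent.LT.T2.H655.subHeckePres655 K
  heckeBdd := Fermat.Agent.LT.T2.H91.subHeckeBdd_of_transl91 (subTransl429 K)
  heckeAdj := Fermat.Agent.LT.T2.H756.subHeckeAdj756 K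
  shiftPres := subShiftPres429 K
  shiftBdd := subShiftBdd429 K
  shiftAdj := subShiftAdj429 K
  convLin := Fermat.Agent.LT.T2.H848.subConvLin848
  convBdd := Fermat.Agent.LT.T2.H173.subConvBdd_of173 (subTransl429 K)
  commHeckeHecke := Fermat.Agent.LT.T2.H75.subCommHeckeHecke75 K
  commConvHecke := Fermat.Agent.LT.T2.H972.subCommConvHecke972 K
  spherePres := O.spherePres
  circlePres := Fermat.Agent.LT.T2.H621.subCirclePres621 K
  meanLin := Fermat.Agent.LT.T2.H546.subMeanLin_of_locCont_h546
    (Fermat.Agent.LT.T2.H472.subLocCont472 K)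
  meanBdd := Fermat.Agent.LT.T2.H322.subMeanBdd322 (subTransl429 K)
    (Fermat.Agent.LT.T2.H472.subLocCont472 K)
  meanAdj := Fermat.Agent.LT.T2.H770.subMeanAdj770 (subTransl429 K)
  commMeanHecke := Fermat.Agent.LT.T2.H314.subCommMeanHecke314 K
  commSphereSphere := O.commSphereSphere
  commSphereCircle := Fermat.Agent.LT.T2.H879.subCommSphereCircle_of_locCont879
    (Fermat.Agent.LT.T2.H472.subLocCont472 K)
  commCircleCircle := Fermat.Agent.LT.T2.H368.subCommCircleCircle368 K
  commConvMean := O.commConvMean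

/-- **STATE OF THE LEAF T2.07** (Spec v3). -/
theorem leaf07_of_open429 (O : Open429 K) : Leaf07 K := leaf07_of_sub429 (sub_of_open429 O)

end Fermat.Agent.LT.T2.H429

end
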